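import Mathlib
import Fermat.Prelude.Def_CuspForm_HeckeAlgebra
import Fermat.Agent.Lib.CuspFormGamma0

/-!
# S22, trivial weights (helper7)

* `subsingleton_cuspForm_of_nonpos` : `S_k(Γ₀(N)) = 0` for `k ≤ 0` (Sturm bound).
* `subsingleton_cuspForm_of_odd`    : `S_k(Γ₀(N)) = 0` for odd `k` (`-1 ∈ Γ₀(N)`).
* `moduleFinite_heckeAlgebra_of_subsingleton` : if `S_k(Γ₀(N))` is a subsingleton, the Hecke
  algebra is a finite `ℤ`-module.
-/

set_option autoImplicit false

open UpperHalfPlane ModularFormClass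
open scoped MatrixGroups ModularForm

namespace Fermat.Agent.S22.H7

theorem subsingleton_cuspForm_of_nonpos (N : ℕ) [NeZero N] (k : ℤ) (hk : k ≤ 0) :
    Subsingleton (CuspForm (CongruenceSubgroup.Gamma0 N) k) := by
  refine ⟨fun f g => ?_⟩
  have h0 : (k * (CongruenceSubgroup.Gamma0 N).index).toNat / 12 = 0 := by
    have : k * ((CongruenceSubgroup.Gamma0 N).index : ℤ) ≤ 0 :=
      mul_nonpos_of_nonpos_of_nonneg hk (by positivity)
    rw [Int.toNat_of_nonpos this]
  rw [Fermat.Agent.Lib.CuspFormGamma0.cuspForm_eq_zero_of_index_lt N h0 f,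
    Fermat.Agent.Lib.CuspFormGamma0.cuspForm_eq_zero_of_index_lt N h0 g]

theorem neg_one_mem_Gamma0 (N : ℕ) : (-1 : SL(2, ℤ)) ∈ CongruenceSubgroup.Gamma0 N := by
  rw [CongruenceSubgroup.Gamma0_mem]
  simp

theorem subsingleton_cuspForm_of_odd (N : ℕ) (k : ℤ) (hk : Odd k) :
    Subsingleton (CuspForm (CongruenceSubgroup.Gamma0 N) k) := by
  refine ⟨fun f g => ?_⟩
  have key : ∀ f : CuspForm (CongruenceSubgroup.Gamma0 N) k, f = 0 := by
    intro f
    ext z
    have h := SlashInvariantForm.slash_action_eqn_SL'' (Γ := CongruenceSubgroup.Gamma0 N) f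
      (neg_one_mem_Gamma0 N) z
    have hsmul : ((-1 : SL(2, ℤ)) • z) = z := by
      simp
    have hden : denom ((-1 : SL(2, ℤ)) : GL (Fin 2) ℝ) z = -1 := by
      simp [denom]
    rw [hsmul] at h
    simp only [hden, hk.neg_one_zpow] at h
    have h2 : (2 : ℂ) * f z = 0 := by linear_combination h
    simpa using h2
  rw [key f, key g]

theorem moduleFinite_heckeAlgebra_of_subsingleton (N : ℕ) [NeZero N] (k : ℤ) (S : Set ℕ)
    [Subsingleton (CuspForm (CongruenceSubgroup.Gamma0 N) k)] :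
    Module.Finite ℤ (CuspForm.heckeAlgebra N k S) := by
  have : Subsingleton (Module.End ℂ (CuspForm (CongruenceSubgroup.Gamma0 N) k)) :=
    ⟨fun a b => LinearMap.ext fun x => Subsingleton.elim _ _⟩
  have : Subsingleton (CuspForm.heckeAlgebra N k S) :=
    ⟨fun a b => Subtype.ext (Subsingleton.elim _ _)⟩
  infer_instance

/-- S22 for weights `k ≤ 1`-type trivial cases: `k ≤ 0` or `k` odd. -/
theorem moduleFinite_heckeAlgebra_of_nonpos_or_odd (N : ℕ) [NeZero N] (k : ℤ) (S : Set ℕ)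
    (hk : k ≤ 0 ∨ Odd k) : Module.Finite ℤ (CuspForm.heckeAlgebra N k S) := by
  have : Subsingleton (CuspForm (CongruenceSubgroup.Gamma0 N) k) := by
    rcases hk with hk | hk
    · exact subsingleton_cuspForm_of_nonpos N k hk
    · exact subsingleton_cuspForm_of_odd N k hk
  exact moduleFinite_heckeAlgebra_of_subsingleton N k S

end Fermat.Agent.S22.H7
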