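import Mathlib
import Fermat.Prelude.Def_CuspForm_HeckeAlgebra

/-!
# S22: interface between the analytic part (Eichler integral) and the algebraic part (period lattice)

`EichlerData N n` packages, for weight `k = n + 2` and level `Gamma0 N`, a linear "Eichler integral"
`E f : ℍ → ℂ` (morally `E f z = ∫_{i∞}^z f(w) (w - z)^n dw`) together with the three facts the
algebraic part needs:

* `poly`    : for `g ∈ Gamma0 N` the function `E f ∣[-n] g - E f` is a polynomial of degree `≤ n`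
              (the period polynomial of `f` at `g`);
* `hecke_T`, `hecke_U` : `E (T_p f) = p^(n+1) • heckeT (-n) p (E f)` and likewise for `U_p`;
* `sep`     : if all period polynomials of `f` vanish then `f = 0`.

The analytic part must produce `Nonempty (EichlerData N n)` for all `N ≠ 0`, `n`.
The algebraic part proves `Module.Finite ℤ (CuspForm.heckeAlgebra N (n + 2) S)` from it.
-/

set_option autoImplicit false

namespace Fermat.Agent.S22

open scoped MatrixGroups ModularForm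
open UpperHalfPlane Matrix.SpecialLinearGroup

structure EichlerData (N : ℕ) [NeZero N] (n : ℕ) where
  E : CuspForm (CongruenceSubgroup.Gamma0 N) ((n : ℤ) + 2) →ₗ[ℂ] (ℍ → ℂ)
  poly : ∀ (f : CuspForm (CongruenceSubgroup.Gamma0 N) ((n : ℤ) + 2)) (g : SL(2, ℤ)),
    g ∈ CongruenceSubgroup.Gamma0 N →
      ∃ P : Polynomial ℂ, P.natDegree ≤ n ∧
        ∀ z : ℍ, ((E f) ∣[-(n : ℤ)] (mapGL ℝ g)) z - E f z = P.eval (z : ℂ)
  hecke_T : ∀ (p : ℕ) (hp : p.Prime) (hpN : ¬ p ∣ N)
    (f : CuspForm (CongruenceSubgroup.Gamma0 N) ((n : ℤ) + 2)),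
      E (CuspForm.heckeTLin ((n : ℤ) + 2) hp hpN f) =
        ((p : ℂ) ^ (n + 1)) • ModularForm.heckeT (-(n : ℤ)) p (E f)
  hecke_U : ∀ (p : ℕ) (_hp : p.Prime) (hpN : p ∣ N)
    (f : CuspForm (CongruenceSubgroup.Gamma0 N) ((n : ℤ) + 2)),
      E (CuspForm.heckeULin ((n : ℤ) + 2) hpN f) =
        ((p : ℂ) ^ (n + 1)) • ModularForm.heckeU (-(n : ℤ)) p (E f)
  sep : ∀ f : CuspForm (CongruenceSubgroup.Gamma0 N) ((n : ℤ) + 2),
    (∀ g : SL(2, ℤ), g ∈ CongruenceSubgroup.Gamma0 N →
      (E f) ∣[-(n : ℤ)] (mapGL ℝ g) = E f) → f = 0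

end Fermat.Agent.S22
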