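import Mathlib

/-!
# S22: abstract lattice lemma

If a set `gens` of endomorphisms of a `ℂ`-vector space `V` preserves (by precomposition) a finitely
generated `ℤ`-submodule `Λ` of the dual of `V` that separates the points of `V`, then the
`ℤ`-algebra generated by `gens` is a finitely generated `ℤ`-module.
-/

set_option autoImplicit false

namespace Fermat.Agent.S22

variable {V : Type*} [AddCommGroup V] [Module ℂ V]

theorem comp_mem_of_mem_adjoin {gens : Set (Module.End ℂ V)}
    {Λ : Submodule ℤ (Module.Dual ℂ V)}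
    (hstab : ∀ τ ∈ gens, ∀ l ∈ Λ, l.comp τ ∈ Λ)
    {t : Module.End ℂ V} (ht : t ∈ Algebra.adjoin ℤ gens) :
    ∀ l ∈ Λ, l.comp t ∈ Λ := by
  induction ht using Algebra.adjoin_induction with
  | mem x hx => exact hstab x hx
  | algebraMap r =>
    intro l hl
    have : l.comp (algebraMap ℤ (Module.End ℂ V) r) = r • l := by
      ext v
      simp
    rw [this]
    exact Λ.smul_mem r hl
  | add x y _ _ hx hy =>
    intro l hl
    have : l.comp (x + y) = l.comp x + l.comp y := by
      ext v; simp
    rw [this]
    exact Λ.add_mem (hx l hl) (hy l hl)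
  | mul x y _ _ hx hy =>
    intro l hl
    have : l.comp (x * y) = (l.comp x).comp y := by
      ext v; simp
    rw [this]
    exact hy _ (hx l hl)

theorem moduleFinite_adjoin_of_lattice (gens : Set (Module.End ℂ V))
    (Λ : Submodule ℤ (Module.Dual ℂ V)) (hfg : Λ.FG)
    (hsep : ∀ v : V, (∀ l ∈ Λ, l v = 0) → v = 0)
    (hstab : ∀ τ ∈ gens, ∀ l ∈ Λ, l.comp τ ∈ Λ) :
    Module.Finite ℤ (Algebra.adjoin ℤ gens) := by
  classical
  have : Module.Finite ℤ Λ := Module.Finite.iff_fg.mpr hfg
  have hrange : ∀ t : Algebra.adjoin ℤ gens, ∀ l : Λ,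
      (l : Module.Dual ℂ V).comp (t : Module.End ℂ V) ∈ Λ := fun t l =>
    comp_mem_of_mem_adjoin hstab t.2 l l.2
  let Ψ : (Algebra.adjoin ℤ gens) →ₗ[ℤ] (Λ →ₗ[ℤ] Λ) :=
    { toFun := fun t =>
        { toFun := fun l => ⟨(l : Module.Dual ℂ V).comp (t : Module.End ℂ V), hrange t l⟩
          map_add' := fun l l' => by
            apply Subtype.ext; apply LinearMap.ext; intro v; rfl
          map_smul' := fun r l => by
            apply Subtype.ext; apply LinearMap.ext; intro v; rfl }
      map_add' := fun t t' => by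
        apply LinearMap.ext; intro l
        apply Subtype.ext; apply LinearMap.ext; intro v
        show (l : Module.Dual ℂ V) (((t : Module.End ℂ V) + (t' : Module.End ℂ V)) v) =
          (l : Module.Dual ℂ V) ((t : Module.End ℂ V) v) + (l : Module.Dual ℂ V) ((t' : Module.End ℂ V) v)
        rw [LinearMap.add_apply, map_add]
      map_smul' := fun r t => by
        apply LinearMap.ext; intro l
        apply Subtype.ext; apply LinearMap.ext; intro v
        show (l : Module.Dual ℂ V) ((r • (t : Module.End ℂ V)) v) =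
          r • (l : Module.Dual ℂ V) ((t : Module.End ℂ V) v)
        rw [LinearMap.smul_apply, map_zsmul] }
  have hinj : Function.Injective Ψ := by
    rw [← LinearMap.ker_eq_bot, LinearMap.ker_eq_bot']
    intro t ht
    apply Subtype.ext
    apply LinearMap.ext
    intro v
    apply hsep
    intro l hl
    have h1 : Ψ t ⟨l, hl⟩ = 0 := by rw [ht]; rfl
    have h2 : ((Ψ t ⟨l, hl⟩ : Λ) : Module.Dual ℂ V) v = 0 := by rw [h1]; rfl
    exact h2
  have : IsNoetherian ℤ (Λ →ₗ[ℤ] Λ) := by
    have : IsNoetherian ℤ Λ := isNoetherian_of_isNoetherianRing_of_finite ℤ Λ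
    infer_instance
  exact Module.Finite.of_injective Ψ hinj

end Fermat.Agent.S22
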