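import Mathlib
import Fermat.Prelude.Def_CuspForm_HeckeAlgebra

/-!
# S22: the integral weight `-n` action of integer matrices on polynomials of degree `≤ n`
-/

set_option autoImplicit false

namespace Fermat.Agent.S22

open Polynomial
open scoped MatrixGroups ModularForm
open UpperHalfPlane Matrix.SpecialLinearGroup

/-- the integer polynomial `(aX+b)^m (cX+d)^(n-m)` -/
noncomputable def basisPoly (n : ℕ) (a b c d : ℤ) (m : ℕ) : ℤ[X] :=
  (C a * X + C b) ^ m * (C c * X + C d) ^ (n - m)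

/-- `P ↦ (cX+d)^n P((aX+b)/(cX+d))` on polynomials of degree `≤ n` (only the coefficients of
index `≤ n` of `P` are used). -/
noncomputable def polySlash (n : ℕ) (a b c d : ℤ) : ℂ[X] →ₗ[ℂ] ℂ[X] :=
  ∑ m ∈ Finset.range (n + 1),
    LinearMap.smulRight (Polynomial.lcoeff ℂ m) ((basisPoly n a b c d m).map (Int.castRingHom ℂ))

theorem polySlash_apply (n : ℕ) (a b c d : ℤ) (P : ℂ[X]) :
    polySlash n a b c d P =
      ∑ m ∈ Finset.range (n + 1), P.coeff m • (basisPoly n a b c d m).map (Int.castRingHom ℂ) := by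
  simp [polySlash, LinearMap.sum_apply]

theorem coeff_polySlash (n : ℕ) (a b c d : ℤ) (P : ℂ[X]) (j : ℕ) :
    (polySlash n a b c d P).coeff j =
      ∑ m ∈ Finset.range (n + 1), ((basisPoly n a b c d m).coeff j : ℤ) • P.coeff m := by
  rw [polySlash_apply, Polynomial.finsetSum_coeff]
  refine Finset.sum_congr rfl fun m _ => ?_
  rw [Polynomial.coeff_smul, Polynomial.coeff_map, smul_eq_mul, zsmul_eq_mul, mul_comm]
  simp

theorem eval_polySlash (n : ℕ) (a b c d : ℤ) (P : ℂ[X]) (hP : P.natDegree ≤ n) (z : ℂ)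
    (hz : (c : ℂ) * z + d ≠ 0) :
    (polySlash n a b c d P).eval z =
      ((c : ℂ) * z + d) ^ n * P.eval (((a : ℂ) * z + b) / ((c : ℂ) * z + d)) := by
  rw [polySlash_apply, Polynomial.eval_finsetSum,
    Polynomial.eval_eq_sum_range' (Nat.lt_succ_of_le hP), Finset.mul_sum]
  refine Finset.sum_congr rfl fun m hm => ?_
  have hm' : m ≤ n := Nat.lt_succ_iff.mp (Finset.mem_range.mp hm)
  rw [Polynomial.eval_smul, smul_eq_mul, Polynomial.eval_map, basisPoly]
  simp only [Polynomial.eval₂_mul, Polynomial.eval₂_pow, Polynomial.eval₂_add, Polynomial.eval₂_C,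
    Polynomial.eval₂_X]
  simp only [eq_intCast]
  have : ((c : ℂ) * z + d) ^ n = ((c : ℂ) * z + d) ^ m * ((c : ℂ) * z + d) ^ (n - m) := by
    rw [← pow_add, Nat.add_sub_cancel' hm']
  have hz' : ((c : ℂ) * z + d) ^ m ≠ 0 := pow_ne_zero _ hz
  rw [this, div_pow]
  have h : ((a : ℂ) * z + b) ^ m / ((c : ℂ) * z + d) ^ m * ((c : ℂ) * z + d) ^ m =
      ((a : ℂ) * z + b) ^ m := div_mul_cancel₀ _ hz'
  calc P.coeff m * (((a : ℂ) * z + b) ^ m * ((c : ℂ) * z + d) ^ (n - m))
      = P.coeff m * ((((a : ℂ) * z + b) ^ m / ((c : ℂ) * z + d) ^ m * ((c : ℂ) * z + d) ^ m) *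
          ((c : ℂ) * z + d) ^ (n - m)) := by rw [h]
    _ = _ := by ring

/-- polynomial functions on the upper half plane -/
noncomputable def polyFun (P : ℂ[X]) : ℍ → ℂ := fun z => P.eval (z : ℂ)

theorem polyFun_apply (P : ℂ[X]) (z : ℍ) : polyFun P z = P.eval (z : ℂ) := rfl

theorem polyFun_injective : Function.Injective polyFun := by
  intro P Q h
  apply Polynomial.eq_of_infinite_eval_eq
  have hsub : Set.range (fun z : ℍ => (z : ℂ)) ⊆ {x | eval x P = eval x Q} := by
    rintro _ ⟨z, rfl⟩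
    exact congrFun h z
  refine Set.Infinite.mono hsub ?_
  apply Set.infinite_range_of_injective
  intro z w hzw
  exact UpperHalfPlane.ext hzw

theorem polyFun_add (P Q : ℂ[X]) : polyFun (P + Q) = polyFun P + polyFun Q := by
  ext z; simp [polyFun]

theorem polyFun_sub (P Q : ℂ[X]) : polyFun (P - Q) = polyFun P - polyFun Q := by
  ext z; simp [polyFun]

theorem polyFun_smul (c : ℂ) (P : ℂ[X]) : polyFun (c • P) = c • polyFun P := by
  ext z; simp [polyFun]

theorem polyFun_zero : polyFun 0 = 0 := by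
  ext z; simp [polyFun]

theorem polyFun_sum {ι : Type*} (s : Finset ι) (P : ι → ℂ[X]) :
    polyFun (∑ i ∈ s, P i) = ∑ i ∈ s, polyFun (P i) := by
  ext z; simp [polyFun, Polynomial.eval_finsetSum]

end Fermat.Agent.S22
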