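import Mathlib
import Fermat.Prelude.Def_CuspForm_HeckeAlgebra
import Fermat.Agent.S22.PolySlash

/-!
# S22: compatibility of `polySlash` with the weight `-n` slash action on polynomial functions
-/

set_option autoImplicit false

namespace Fermat.Agent.S22

open Polynomial
open scoped MatrixGroups ModularForm
open UpperHalfPlane Matrix.SpecialLinearGroup

theorem slash_sub' (k : ℤ) (A : GL (Fin 2) ℝ) (f g : ℍ → ℂ) :
    (f - g) ∣[k] A = f ∣[k] A - g ∣[k] A := by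
  rw [sub_eq_add_neg, SlashAction.add_slash, SlashAction.neg_slash, ← sub_eq_add_neg]

theorem polyFun_slash_SL (n : ℕ) (g : SL(2, ℤ)) (P : ℂ[X]) (hP : P.natDegree ≤ n) :
    (polyFun P) ∣[-(n : ℤ)] (mapGL ℝ g) =
      polyFun (polySlash n (g 0 0) (g 0 1) (g 1 0) (g 1 1) P) := by
  ext τ
  have h1 : ((polyFun P) ∣[-(n : ℤ)] (mapGL ℝ g)) τ =
      polyFun P (g • τ) * denom g τ ^ (-(-(n : ℤ))) :=
    ModularForm.SL_slash_apply (k := -(n : ℤ)) (polyFun P) g τ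
  rw [h1, neg_neg, zpow_natCast, polyFun_apply, polyFun_apply]
  have hden : denom g τ = ((g 1 0 : ℤ) : ℂ) * τ + ((g 1 1 : ℤ) : ℂ) := ModularGroup.denom_apply g τ
  have hne : ((g 1 0 : ℤ) : ℂ) * τ + ((g 1 1 : ℤ) : ℂ) ≠ 0 := by
    rw [← hden]; exact denom_ne_zero _ τ
  rw [eval_polySlash n _ _ _ _ P hP τ hne, hden, mul_comm]
  congr 2
  rw [UpperHalfPlane.specialLinearGroup_apply]
  simp

theorem polyFun_slash_heckeMatrix (n : ℕ) {p : ℕ} (hp : p ≠ 0) (j : ℕ) (P : ℂ[X])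
    (hP : P.natDegree ≤ n) :
    ((p : ℂ) ^ (n + 1)) • ((polyFun P) ∣[-(n : ℤ)] ModularForm.heckeMatrix p j) =
      polyFun (polySlash n 1 j 0 p P) := by
  ext τ
  have hp' : (p : ℂ) ≠ 0 := by exact_mod_cast hp
  rw [Pi.smul_apply, ModularForm.slash_heckeMatrix_apply _ hp, polyFun_apply, polyFun_apply,
    ModularForm.coe_heckeMatrix_smul hp]
  have hne : ((0 : ℤ) : ℂ) * (τ : ℂ) + ((p : ℤ) : ℂ) ≠ 0 := by simpa using hp'
  rw [eval_polySlash n _ _ _ _ P hP τ hne]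
  simp only [Int.cast_zero, zero_mul, zero_add, Int.cast_natCast, Int.cast_one, one_mul,
    smul_eq_mul]
  rw [pow_succ]
  field_simp

theorem polyFun_slash_heckeDiagMatrix (n : ℕ) {p : ℕ} (hp : p ≠ 0) (P : ℂ[X])
    (hP : P.natDegree ≤ n) :
    ((p : ℂ) ^ (n + 1)) • ((polyFun P) ∣[-(n : ℤ)] ModularForm.heckeDiagMatrix p) =
      polyFun (polySlash n p 0 0 1 P) := by
  ext τ
  have hp' : (p : ℂ) ≠ 0 := by exact_mod_cast hp
  rw [Pi.smul_apply, ModularForm.slash_heckeDiagMatrix_apply _ hp, polyFun_apply, polyFun_apply,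
    ModularForm.coe_heckeDiagMatrix_smul hp]
  have hne : ((0 : ℤ) : ℂ) * (τ : ℂ) + ((1 : ℤ) : ℂ) ≠ 0 := by simp
  rw [eval_polySlash n _ _ _ _ P hP τ hne]
  simp only [Int.cast_zero, zero_mul, zero_add, Int.cast_natCast, Int.cast_one, one_pow, one_mul,
    smul_eq_mul, add_zero, div_one]
  rw [← mul_assoc]
  have : (p : ℂ) ^ (n + 1) * (p : ℂ) ^ (-(n : ℤ) - 1) = 1 := by
    rw [← zpow_natCast, ← zpow_add₀ hp']
    have : ((n + 1 : ℕ) : ℤ) + (-(n : ℤ) - 1) = 0 := by push_cast; ring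
    rw [this, zpow_zero]
  rw [this, one_mul]

end Fermat.Agent.S22
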