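import Mathlib
import Fermat.Prelude.Def_CuspForm_HeckeAlgebra
import Fermat.Agent.S22.Interface
import Fermat.Agent.S22.PolyFunSlash

/-!
# S22: period polynomials attached to `EichlerData`, cocycle relation and Hecke relation
-/

set_option autoImplicit false

namespace Fermat.Agent.S22

open Polynomial
open scoped MatrixGroups ModularForm
open UpperHalfPlane Matrix.SpecialLinearGroup CongruenceSubgroup
open P2MW.S_ModularForm_heckeT_slash_eq_self_of_mem_Gamma0.ModularForm.HeckeSlashInvariance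

/-- `polySlash` for an element of `SL(2, ℤ)` -/
noncomputable abbrev polySlashSL (n : ℕ) (g : SL(2, ℤ)) : ℂ[X] →ₗ[ℂ] ℂ[X] :=
  polySlash n (g 0 0) (g 0 1) (g 1 0) (g 1 1)

/-- `polySlash` for the Hecke representatives indexed by `OnePoint (ZMod p)` -/
noncomputable def polySlashRep (n p : ℕ) (y : OnePoint (ZMod p)) : ℂ[X] →ₗ[ℂ] ℂ[X] :=
  y.elim (polySlash n p 0 0 1) (fun j => polySlash n 1 j.val 0 p)

theorem polyFun_slash_heckeRep (n : ℕ) {p : ℕ} (hp : p ≠ 0) (y : OnePoint (ZMod p)) (P : ℂ[X])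
    (hP : P.natDegree ≤ n) :
    ((p : ℂ) ^ (n + 1)) • ((polyFun P) ∣[-(n : ℤ)] heckeRep p y) =
      polyFun (polySlashRep n p y P) := by
  induction y using OnePoint.rec with
  | infty => exact polyFun_slash_heckeDiagMatrix n hp P hP
  | coe j => exact polyFun_slash_heckeMatrix n hp j.val P hP

namespace EichlerData

variable {N : ℕ} [NeZero N] {n : ℕ} (D : EichlerData N n)

/-- the period polynomial of `f` at `g` (zero if `g ∉ Gamma0 N`) -/
noncomputable def period (f : CuspForm (Gamma0 N) ((n : ℤ) + 2)) (g : SL(2, ℤ)) : ℂ[X] := by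
  classical
  exact if h : g ∈ Gamma0 N then (D.poly f g h).choose else 0

theorem natDegree_period_le (f : CuspForm (Gamma0 N) ((n : ℤ) + 2)) (g : SL(2, ℤ)) :
    (D.period f g).natDegree ≤ n := by
  classical
  unfold period
  split_ifs with h
  · exact (D.poly f g h).choose_spec.1
  · simp

theorem polyFun_period (f : CuspForm (Gamma0 N) ((n : ℤ) + 2)) {g : SL(2, ℤ)}
    (hg : g ∈ Gamma0 N) :
    polyFun (D.period f g) = (D.E f) ∣[-(n : ℤ)] (mapGL ℝ g) - D.E f := by
  classical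
  ext z
  unfold period
  rw [dif_pos hg, polyFun_apply, Pi.sub_apply]
  exact ((D.poly f g hg).choose_spec.2 z).symm

theorem period_of_not_mem (f : CuspForm (Gamma0 N) ((n : ℤ) + 2)) {g : SL(2, ℤ)}
    (hg : g ∉ Gamma0 N) : D.period f g = 0 := by
  classical
  unfold period
  rw [dif_neg hg]

theorem period_add (f f' : CuspForm (Gamma0 N) ((n : ℤ) + 2)) (g : SL(2, ℤ)) :
    D.period (f + f') g = D.period f g + D.period f' g := by
  by_cases hg : g ∈ Gamma0 N
  · apply polyFun_injective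
    rw [polyFun_add, D.polyFun_period _ hg, D.polyFun_period _ hg, D.polyFun_period _ hg,
      map_add, SlashAction.add_slash]
    abel
  · simp [D.period_of_not_mem _ hg]

theorem period_smul (c : ℂ) (f : CuspForm (Gamma0 N) ((n : ℤ) + 2)) (g : SL(2, ℤ)) :
    D.period (c • f) g = c • D.period f g := by
  by_cases hg : g ∈ Gamma0 N
  · apply polyFun_injective
    rw [polyFun_smul, D.polyFun_period _ hg, D.polyFun_period _ hg, map_smul]
    have : (c • D.E f) ∣[-(n : ℤ)] (mapGL ℝ g) = c • ((D.E f) ∣[-(n : ℤ)] (mapGL ℝ g)) :=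
      ModularForm.SL_smul_slash (-(n : ℤ)) g (D.E f) c
    rw [this, smul_sub]
  · simp [D.period_of_not_mem _ hg]

theorem period_one (f : CuspForm (Gamma0 N) ((n : ℤ) + 2)) : D.period f 1 = 0 := by
  apply polyFun_injective
  rw [D.polyFun_period f (Subgroup.one_mem _), polyFun_zero, map_one, SlashAction.slash_one,
    sub_self]

theorem period_mul (f : CuspForm (Gamma0 N) ((n : ℤ) + 2)) {g g' : SL(2, ℤ)}
    (hg : g ∈ Gamma0 N) (hg' : g' ∈ Gamma0 N) :
    D.period f (g * g') = polySlashSL n g' (D.period f g) + D.period f g' := by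
  apply polyFun_injective
  rw [polyFun_add, D.polyFun_period f (Subgroup.mul_mem _ hg hg'), D.polyFun_period f hg',
    ← polyFun_slash_SL n g' _ (D.natDegree_period_le f g), D.polyFun_period f hg, map_mul,
    SlashAction.slash_mul, slash_sub']
  abel

theorem period_inv (f : CuspForm (Gamma0 N) ((n : ℤ) + 2)) {g : SL(2, ℤ)}
    (hg : g ∈ Gamma0 N) :
    D.period f g⁻¹ = - polySlashSL n g⁻¹ (D.period f g) := by
  have h := D.period_mul f hg (Subgroup.inv_mem _ hg)
  rw [mul_inv_cancel, D.period_one] at h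
  exact eq_neg_of_add_eq_zero_right h.symm

/-- The Hecke relation for `T_p`, `p ∤ N`. -/
theorem period_heckeT {p : ℕ} [NeZero p] (hp : p.Prime) (hpN : ¬ p ∣ N) {g : SL(2, ℤ)}
    (hg : g ∈ Gamma0 N) :
    ∃ (σ : Equiv.Perm (OnePoint (ZMod p))) (g' : OnePoint (ZMod p) → SL(2, ℤ)),
      (∀ x, g' x ∈ Gamma0 N) ∧
      ∀ f : CuspForm (Gamma0 N) ((n : ℤ) + 2),
        D.period (CuspForm.heckeTLin ((n : ℤ) + 2) hp hpN f) g =
          ∑ x : OnePoint (ZMod p), polySlashRep n p (σ x) (D.period f (g' x)) := by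
  classical
  have : Fact p.Prime := ⟨hp⟩
  have hgN : (N : ℤ) ∣ g 1 0 :=
    (ZMod.intCast_zmod_eq_zero_iff_dvd _ _).mp (Gamma0_mem.mp hg)
  have key := fun x => heckeRep_mul hpN g hgN x
  choose g' hg'N hmul using key
  have hg'mem : ∀ x, g' x ∈ Gamma0 N := fun x =>
    Gamma0_mem.mpr ((ZMod.intCast_zmod_eq_zero_iff_dvd _ _).mpr (hg'N x))
  refine ⟨MulAction.toPerm (redMatrix p g), g', hg'mem, fun f => ?_⟩
  apply polyFun_injective
  rw [D.polyFun_period _ hg, D.hecke_T p hp hpN f, polyFun_sum]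
  set F := D.E f with hF
  set c : ℂ := (p : ℂ) ^ (n + 1) with hc
  have h1 : (c • ModularForm.heckeT (-(n : ℤ)) p F) ∣[-(n : ℤ)] (mapGL ℝ g) =
      c • ((ModularForm.heckeT (-(n : ℤ)) p F) ∣[-(n : ℤ)] (mapGL ℝ g)) :=
    ModularForm.SL_smul_slash (-(n : ℤ)) g _ c
  rw [h1, ← smul_sub]
  have h2 : (ModularForm.heckeT (-(n : ℤ)) p F) ∣[-(n : ℤ)] (mapGL ℝ g) =
      ∑ x : OnePoint (ZMod p), (F ∣[-(n : ℤ)] (mapGL ℝ (g' x))) ∣[-(n : ℤ)]
        heckeRep p (redMatrix p g • x) := by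
    rw [heckeT_eq_sum_onePoint, SlashAction.sum_slash]
    refine Finset.sum_congr rfl fun x _ => ?_
    rw [← SlashAction.slash_mul, hmul x, SlashAction.slash_mul]
  have h3 : ModularForm.heckeT (-(n : ℤ)) p F =
      ∑ x : OnePoint (ZMod p), F ∣[-(n : ℤ)] heckeRep p (redMatrix p g • x) := by
    rw [heckeT_eq_sum_onePoint]
    exact (Equiv.sum_comp (MulAction.toPerm (redMatrix p g))
      (fun x => F ∣[-(n : ℤ)] heckeRep p x)).symm
  rw [h2, h3, ← Finset.sum_sub_distrib, Finset.smul_sum]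
  refine Finset.sum_congr rfl fun x _ => ?_
  rw [← slash_sub', ← D.polyFun_period f (hg'mem x),
    polyFun_slash_heckeRep n hp.ne_zero _ _ (D.natDegree_period_le f (g' x))]
  rfl

/-- `polySlash` for the `U_p` representatives indexed by `ZMod p` -/
noncomputable def _root_.Fermat.Agent.S22.polySlashU (n p : ℕ) (y : ZMod p) : ℂ[X] →ₗ[ℂ] ℂ[X] :=
  polySlash n 1 y.val 0 p

/-- The Hecke relation for `U_p`, `p ∣ N`. -/
theorem period_heckeU {p : ℕ} [NeZero p] (hp : p.Prime) (hpN : p ∣ N) {g : SL(2, ℤ)}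
    (hg : g ∈ Gamma0 N) :
    ∃ (σ : Equiv.Perm (ZMod p)) (g' : ZMod p → SL(2, ℤ)),
      (∀ x, g' x ∈ Gamma0 N) ∧
      ∀ f : CuspForm (Gamma0 N) ((n : ℤ) + 2),
        D.period (CuspForm.heckeULin ((n : ℤ) + 2) hpN f) g =
          ∑ x : ZMod p, polySlashU n p (σ x) (D.period f (g' x)) := by
  classical
  have hgN : (N : ℤ) ∣ g 1 0 :=
    (ZMod.intCast_zmod_eq_zero_iff_dvd _ _).mp (Gamma0_mem.mp hg)
  have hc : (p : ℤ) ∣ g 1 0 := (Int.natCast_dvd_natCast.mpr hpN).trans hgN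
  have key := fun x => heckeMatrix_mul_of_dvd g hc x
  choose g' hg'N hmul using key
  have hg'mem : ∀ x, g' x ∈ Gamma0 N := fun x => by
    rw [Gamma0_mem, hg'N x]
    push_cast
    rw [Gamma0_mem.mp hg, mul_zero]
  refine ⟨affinePerm g ((ZMod.intCast_zmod_eq_zero_iff_dvd _ _).mpr hc), g', hg'mem, fun f => ?_⟩
  apply polyFun_injective
  rw [D.polyFun_period _ hg, D.hecke_U p hp hpN f, polyFun_sum]
  set F := D.E f with hF
  set c : ℂ := (p : ℂ) ^ (n + 1) with hcdef
  set σ := affinePerm g ((ZMod.intCast_zmod_eq_zero_iff_dvd _ _).mpr hc) with hσ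
  have h1 : (c • ModularForm.heckeU (-(n : ℤ)) p F) ∣[-(n : ℤ)] (mapGL ℝ g) =
      c • ((ModularForm.heckeU (-(n : ℤ)) p F) ∣[-(n : ℤ)] (mapGL ℝ g)) :=
    ModularForm.SL_smul_slash (-(n : ℤ)) g _ c
  rw [h1, ← smul_sub]
  have h2 : (ModularForm.heckeU (-(n : ℤ)) p F) ∣[-(n : ℤ)] (mapGL ℝ g) =
      ∑ x : ZMod p, (F ∣[-(n : ℤ)] (mapGL ℝ (g' x))) ∣[-(n : ℤ)]
        ModularForm.heckeMatrix p (σ x).val := by
    rw [heckeU_eq_sum_zmod, SlashAction.sum_slash]
    refine Finset.sum_congr rfl fun x _ => ?_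
    rw [← SlashAction.slash_mul, hmul x, SlashAction.slash_mul]
  have h3 : ModularForm.heckeU (-(n : ℤ)) p F =
      ∑ x : ZMod p, F ∣[-(n : ℤ)] ModularForm.heckeMatrix p (σ x).val := by
    rw [heckeU_eq_sum_zmod]
    exact (Equiv.sum_comp σ (fun x => F ∣[-(n : ℤ)] ModularForm.heckeMatrix p x.val)).symm
  rw [h2, h3, ← Finset.sum_sub_distrib, Finset.smul_sum]
  refine Finset.sum_congr rfl fun x _ => ?_
  rw [← slash_sub', ← D.polyFun_period f (hg'mem x),
    polyFun_slash_heckeMatrix n hp.ne_zero _ _ (D.natDegree_period_le f (g' x))]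
  rfl

end EichlerData

end Fermat.Agent.S22
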