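import Mathlib
import Fermat.Prelude.Def_CuspForm_HeckeAlgebra
import Fermat.Agent.S22.Interface
import Fermat.Agent.S22.Period
import Fermat.Agent.S22.AbstractLattice

/-!
# S22: the period lattice is finitely generated, Hecke stable and separating
-/

set_option autoImplicit false

namespace Fermat.Agent.S22

open Polynomial
open scoped MatrixGroups ModularForm
open UpperHalfPlane Matrix.SpecialLinearGroup CongruenceSubgroup

theorem groupFG_SL2Z : Group.FG SL(2, ℤ) := by
  rw [Group.fg_iff]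
  exact ⟨{ModularGroup.S, ModularGroup.T}, SpecialLinearGroup.SL2Z_generators, by simp⟩

theorem groupFG_Gamma0 (N : ℕ) [NeZero N] : Group.FG ↥(Gamma0 N) := by
  have := groupFG_SL2Z
  exact Subgroup.fg_of_index_ne_zero (Gamma0 N)

namespace EichlerData

variable {N : ℕ} [NeZero N] {n : ℕ} (D : EichlerData N n)

/-- the `m`-th coefficient of the period polynomial at `g`, as a linear functional -/
noncomputable def coeffFun (g : SL(2, ℤ)) (m : ℕ) :
    Module.Dual ℂ (CuspForm (Gamma0 N) ((n : ℤ) + 2)) where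
  toFun f := (D.period f g).coeff m
  map_add' f f' := by rw [D.period_add, Polynomial.coeff_add]
  map_smul' c f := by rw [D.period_smul, Polynomial.coeff_smul]; rfl

@[simp] theorem coeffFun_apply (g : SL(2, ℤ)) (m : ℕ) (f : CuspForm (Gamma0 N) ((n : ℤ) + 2)) :
    D.coeffFun g m f = (D.period f g).coeff m := rfl

theorem coeffFun_eq_zero_of_lt (g : SL(2, ℤ)) {m : ℕ} (hm : n < m) : D.coeffFun g m = 0 := by
  ext f
  rw [coeffFun_apply, LinearMap.zero_apply]
  exact Polynomial.coeff_eq_zero_of_natDegree_lt (lt_of_le_of_lt (D.natDegree_period_le f g) hm)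

/-- the period lattice -/
noncomputable def lattice : Submodule ℤ (Module.Dual ℂ (CuspForm (Gamma0 N) ((n : ℤ) + 2))) :=
  Submodule.span ℤ {l | ∃ g ∈ Gamma0 N, ∃ m : ℕ, l = D.coeffFun g m}

theorem coeffFun_mem_lattice {g : SL(2, ℤ)} (hg : g ∈ Gamma0 N) (m : ℕ) :
    D.coeffFun g m ∈ D.lattice :=
  Submodule.subset_span ⟨g, hg, m, rfl⟩

/-- the functional `f ↦ coeff_j (polySlash (period f g))` is an integer combination of
coefficient functionals at `g`. -/
theorem coeff_polySlash_period_eq (a b c d : ℤ) (g : SL(2, ℤ)) (j : ℕ)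
    (f : CuspForm (Gamma0 N) ((n : ℤ) + 2)) :
    (polySlash n a b c d (D.period f g)).coeff j =
      (∑ m ∈ Finset.range (n + 1), ((basisPoly n a b c d m).coeff j : ℤ) • D.coeffFun g m) f := by
  rw [coeff_polySlash, LinearMap.sum_apply]
  refine Finset.sum_congr rfl fun m _ => ?_
  rw [LinearMap.smul_apply, coeffFun_apply]

theorem sum_coeffFun_mem {M : Submodule ℤ (Module.Dual ℂ (CuspForm (Gamma0 N) ((n : ℤ) + 2)))}
    (a b c d : ℤ) (g : SL(2, ℤ)) (j : ℕ) (h : ∀ m, D.coeffFun g m ∈ M) :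
    (∑ m ∈ Finset.range (n + 1), ((basisPoly n a b c d m).coeff j : ℤ) • D.coeffFun g m) ∈ M :=
  Submodule.sum_mem _ fun m _ => M.smul_mem _ (h m)

theorem lattice_fg : D.lattice.FG := by
  classical
  obtain ⟨S₀, hS₀, hfin⟩ := Group.fg_iff.mp (groupFG_Gamma0 N)
  set M : Submodule ℤ (Module.Dual ℂ (CuspForm (Gamma0 N) ((n : ℤ) + 2))) :=
    Submodule.span ℤ ((fun x : ↥(Gamma0 N) × ℕ => D.coeffFun (x.1 : SL(2, ℤ)) x.2) ''
      (S₀ ×ˢ (Finset.range (n + 1) : Set ℕ))) with hM
  have hMfg : M.FG :=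
    Submodule.fg_span ((hfin.prod (Finset.finite_toSet _)).image _)
  have hmem : ∀ g : ↥(Gamma0 N), ∀ j : ℕ, D.coeffFun (g : SL(2, ℤ)) j ∈ M := by
    intro g
    have hg : g ∈ Subgroup.closure S₀ := by rw [hS₀]; trivial
    induction hg using Subgroup.closure_induction with
    | mem x hx =>
      intro j
      by_cases hj : j ≤ n
      · exact Submodule.subset_span
          ⟨(x, j), ⟨hx, by simpa using Nat.lt_succ_of_le hj⟩, rfl⟩
      · rw [D.coeffFun_eq_zero_of_lt _ (not_le.mp hj)]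
        exact M.zero_mem
    | one =>
      intro j
      have : D.coeffFun ((1 : ↥(Gamma0 N)) : SL(2, ℤ)) j = 0 := by
        ext f
        rw [coeffFun_apply, Subgroup.coe_one, D.period_one]
        simp
      rw [this]
      exact M.zero_mem
    | mul x y _ _ hx hy =>
      intro j
      have : D.coeffFun ((x * y : ↥(Gamma0 N)) : SL(2, ℤ)) j =
          (∑ m ∈ Finset.range (n + 1),
            ((basisPoly n ((y : SL(2, ℤ)) 0 0) ((y : SL(2, ℤ)) 0 1) ((y : SL(2, ℤ)) 1 0)
              ((y : SL(2, ℤ)) 1 1) m).coeff j : ℤ) • D.coeffFun (x : SL(2, ℤ)) m) +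
            D.coeffFun (y : SL(2, ℤ)) j := by
        ext f
        rw [coeffFun_apply, Subgroup.coe_mul, D.period_mul f x.2 y.2, Polynomial.coeff_add,
          LinearMap.add_apply, coeffFun_apply, ← coeff_polySlash_period_eq]
      rw [this]
      exact M.add_mem (D.sum_coeffFun_mem _ _ _ _ _ _ hx) (hy j)
    | inv x _ hx =>
      intro j
      have : D.coeffFun ((x⁻¹ : ↥(Gamma0 N)) : SL(2, ℤ)) j =
          - (∑ m ∈ Finset.range (n + 1),
            ((basisPoly n ((x : SL(2, ℤ))⁻¹ 0 0) ((x : SL(2, ℤ))⁻¹ 0 1) ((x : SL(2, ℤ))⁻¹ 1 0)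
              ((x : SL(2, ℤ))⁻¹ 1 1) m).coeff j : ℤ) • D.coeffFun (x : SL(2, ℤ)) m) := by
        ext f
        rw [coeffFun_apply, Subgroup.coe_inv, D.period_inv f x.2, Polynomial.coeff_neg,
          LinearMap.neg_apply, ← coeff_polySlash_period_eq]
      rw [this]
      exact M.neg_mem (D.sum_coeffFun_mem _ _ _ _ _ _ hx)
  have hle : D.lattice ≤ M := by
    refine Submodule.span_le.mpr ?_
    rintro l ⟨g, hg, m, rfl⟩
    exact hmem ⟨g, hg⟩ m
  have hge : M ≤ D.lattice := by
    refine Submodule.span_le.mpr ?_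
    rintro l ⟨⟨g, m⟩, _, rfl⟩
    exact D.coeffFun_mem_lattice g.2 m
  rw [le_antisymm hle hge]
  exact hMfg

theorem lattice_sep (f : CuspForm (Gamma0 N) ((n : ℤ) + 2))
    (h : ∀ l ∈ D.lattice, l f = 0) : f = 0 := by
  apply D.sep f
  intro g hg
  have hper : D.period f g = 0 := by
    ext m
    rw [Polynomial.coeff_zero]
    exact h _ (D.coeffFun_mem_lattice hg m)
  have := D.polyFun_period f hg
  rw [hper, polyFun_zero] at this
  exact (sub_eq_zero.mp this.symm)

theorem lattice_comp_mem_of_forall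
    (τ : Module.End ℂ (CuspForm (Gamma0 N) ((n : ℤ) + 2)))
    (hτ : ∀ g ∈ Gamma0 N, ∀ j : ℕ, (D.coeffFun g j).comp τ ∈ D.lattice) :
    ∀ l ∈ D.lattice, l.comp τ ∈ D.lattice := by
  intro l hl
  induction hl using Submodule.span_induction with
  | mem x hx =>
    obtain ⟨g, hg, m, rfl⟩ := hx
    exact hτ g hg m
  | zero =>
    rw [LinearMap.zero_comp]
    exact Submodule.zero_mem _
  | add x y _ _ hx hy =>
    rw [LinearMap.add_comp]
    exact Submodule.add_mem _ hx hy
  | smul a x _ hx =>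
    have : (a • x).comp τ = a • x.comp τ := by
      ext v; simp
    rw [this]
    exact Submodule.smul_mem _ a hx

theorem lattice_stable_T {p : ℕ} (hp : p.Prime) (hpN : ¬ p ∣ N) :
    ∀ l ∈ D.lattice, l.comp (CuspForm.heckeTLin ((n : ℤ) + 2) hp hpN) ∈ D.lattice := by
  classical
  have : NeZero p := ⟨hp.ne_zero⟩
  apply D.lattice_comp_mem_of_forall
  intro g hg j
  obtain ⟨σ, g', hg', hrel⟩ := D.period_heckeT hp hpN hg
  have : (D.coeffFun g j).comp (CuspForm.heckeTLin ((n : ℤ) + 2) hp hpN) =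
      ∑ x : OnePoint (ZMod p), ((σ x).elim
        (∑ m ∈ Finset.range (n + 1), ((basisPoly n p 0 0 1 m).coeff j : ℤ) •
          D.coeffFun (g' x) m)
        (fun i => ∑ m ∈ Finset.range (n + 1), ((basisPoly n 1 i.val 0 p m).coeff j : ℤ) •
          D.coeffFun (g' x) m)) := by
    ext f
    rw [LinearMap.comp_apply, coeffFun_apply, hrel f, Polynomial.finsetSum_coeff,
      LinearMap.sum_apply]
    refine Finset.sum_congr rfl fun x _ => ?_
    generalize σ x = y
    induction y using OnePoint.rec with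
    | infty => exact D.coeff_polySlash_period_eq _ _ _ _ _ _ _
    | coe i => exact D.coeff_polySlash_period_eq _ _ _ _ _ _ _
  rw [this]
  refine Submodule.sum_mem _ fun x _ => ?_
  generalize σ x = y
  induction y using OnePoint.rec with
  | infty => exact D.sum_coeffFun_mem _ _ _ _ _ _ fun m => D.coeffFun_mem_lattice (hg' _) m
  | coe i => exact D.sum_coeffFun_mem _ _ _ _ _ _ fun m => D.coeffFun_mem_lattice (hg' _) m

theorem lattice_stable_U {p : ℕ} (hp : p.Prime) (hpN : p ∣ N) :
    ∀ l ∈ D.lattice, l.comp (CuspForm.heckeULin ((n : ℤ) + 2) hpN) ∈ D.lattice := by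
  classical
  have : NeZero p := ⟨hp.ne_zero⟩
  apply D.lattice_comp_mem_of_forall
  intro g hg j
  obtain ⟨σ, g', hg', hrel⟩ := D.period_heckeU hp hpN hg
  have : (D.coeffFun g j).comp (CuspForm.heckeULin ((n : ℤ) + 2) hpN) =
      ∑ x : ZMod p, ∑ m ∈ Finset.range (n + 1),
        ((basisPoly n 1 (σ x).val 0 p m).coeff j : ℤ) • D.coeffFun (g' x) m := by
    ext f
    rw [LinearMap.comp_apply, coeffFun_apply, hrel f, Polynomial.finsetSum_coeff,
      LinearMap.sum_apply]
    refine Finset.sum_congr rfl fun x _ => ?_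
    exact D.coeff_polySlash_period_eq _ _ _ _ _ _ _
  rw [this]
  exact Submodule.sum_mem _ fun x _ =>
    D.sum_coeffFun_mem _ _ _ _ _ _ fun m => D.coeffFun_mem_lattice (hg' _) m

/-- **Main algebraic theorem**: from `EichlerData`, the Hecke algebra is a finite `ℤ`-module. -/
theorem moduleFinite_heckeAlgebra (D : EichlerData N n) (S : Set ℕ) :
    Module.Finite ℤ (CuspForm.heckeAlgebra N ((n : ℤ) + 2) S) := by
  refine moduleFinite_adjoin_of_lattice (CuspForm.heckeGenerators N ((n : ℤ) + 2) S) D.lattice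
    D.lattice_fg D.lattice_sep ?_
  rintro τ (⟨ℓ, hℓ, hℓN, -, rfl⟩ | ⟨q, hqN, hq, -, rfl⟩)
  · exact D.lattice_stable_T hℓ hℓN
  · exact D.lattice_stable_U hq hqN

end EichlerData

end Fermat.Agent.S22
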