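import Mathlib
import Fermat.Prelude.Def_CuspForm_HeckeAlgebra
import Fermat.Agent.S22.Interface
import Fermat.Agent.S22.Lattice
import Fermat.Agent.S22.H7_Trivial

/-!
# S22: assembly

`Module.Finite ℤ (heckeAlgebra N k S)` for all `k`, given `EichlerData N n` for all `N ≠ 0`, `n`.
-/

set_option autoImplicit false

namespace Fermat.Agent.S22

open scoped MatrixGroups ModularForm
open CongruenceSubgroup

theorem moduleFinite_heckeAlgebra_of_eichlerData
    (h : ∀ (N : ℕ) [NeZero N] (n : ℕ), Nonempty (EichlerData N n))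
    (N : ℕ) [NeZero N] (k : ℤ) (S : Set ℕ) :
    Module.Finite ℤ (CuspForm.heckeAlgebra N k S) := by
  by_cases hk : k ≤ 0
  · exact H7.moduleFinite_heckeAlgebra_of_nonpos_or_odd N k S (Or.inl hk)
  · obtain ⟨n, rfl⟩ : ∃ n : ℕ, k = (n : ℤ) + 1 := ⟨(k - 1).toNat, by omega⟩
    rcases n with _ | n
    · exact H7.moduleFinite_heckeAlgebra_of_nonpos_or_odd N _ S (Or.inr (by decide))
    · obtain ⟨D⟩ := h N n
      have hkn : ((n + 1 : ℕ) : ℤ) + 1 = (n : ℤ) + 2 := by push_cast; ring
      rw [hkn]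
      exact D.moduleFinite_heckeAlgebra S

end Fermat.Agent.S22
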