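import Mathlib.NumberTheory.ModularForms.Derivative
import Mathlib.NumberTheory.ModularForms.Basic

/-!
# Iterated normalized derivative and Bol's identity (helper76, S22)
-/

namespace Fermat.Agent.S22.H76

open UpperHalfPlane hiding I
open Real Complex Derivative
open scoped Manifold MatrixGroups ModularForm Topology

noncomputable section

/-- The iterated normalized derivative `D^n`. -/
def iterD (n : ℕ) (F : ℍ → ℂ) : ℍ → ℂ := (normalizedDerivOfComplex)^[n] F

@[simp] theorem iterD_zero (F : ℍ → ℂ) : iterD 0 F = F := rfl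

theorem iterD_succ (n : ℕ) (F : ℍ → ℂ) : iterD (n + 1) F = D (iterD n F) := by
  simp only [iterD, Function.iterate_succ_apply']

theorem iterD_succ' (n : ℕ) (F : ℍ → ℂ) : iterD (n + 1) F = iterD n (D F) := by
  simp only [iterD, Function.iterate_succ_apply]

theorem iterD_one (F : ℍ → ℂ) : iterD 1 F = D F := rfl

theorem iterD_add_apply (a b : ℕ) (F : ℍ → ℂ) : iterD (a + b) F = iterD a (iterD b F) := by
  simp only [iterD, Function.iterate_add_apply]

theorem iterD_mdiff {F : ℍ → ℂ} (hF : MDiff F) (n : ℕ) : MDiff (iterD n F) := by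
  induction n with
  | zero => exact hF
  | succ n ih => rw [iterD_succ]; exact normalizedDerivOfComplex_mdifferentiable ih

theorem D_zero : D (0 : ℍ → ℂ) = 0 := by
  have := normalizedDerivOfComplex_const 0
  exact this

theorem iterD_zero_fun (n : ℕ) : iterD n (0 : ℍ → ℂ) = 0 := by
  induction n with
  | zero => rfl
  | succ n ih => rw [iterD_succ, ih, D_zero]

theorem iterD_add {F G : ℍ → ℂ} (hF : MDiff F) (hG : MDiff G) (n : ℕ) :
    iterD n (F + G) = iterD n F + iterD n G := by
  induction n with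
  | zero => rfl
  | succ n ih =>
    rw [iterD_succ, ih, iterD_succ, iterD_succ,
      normalizedDerivOfComplex_add _ _ (iterD_mdiff hF n) (iterD_mdiff hG n)]

theorem iterD_sub {F G : ℍ → ℂ} (hF : MDiff F) (hG : MDiff G) (n : ℕ) :
    iterD n (F - G) = iterD n F - iterD n G := by
  induction n with
  | zero => rfl
  | succ n ih =>
    rw [iterD_succ, ih, iterD_succ, iterD_succ,
      normalizedDerivOfComplex_sub _ _ (iterD_mdiff hF n) (iterD_mdiff hG n)]

theorem iterD_smul {F : ℍ → ℂ} (hF : MDiff F) (c : ℂ) (n : ℕ) :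
    iterD n (c • F) = c • iterD n F := by
  induction n with
  | zero => rfl
  | succ n ih =>
    rw [iterD_succ, ih, iterD_succ, normalizedDerivOfComplex_smul _ _ (iterD_mdiff hF n)]

theorem iterD_neg {F : ℍ → ℂ} (hF : MDiff F) (n : ℕ) :
    iterD n (-F) = - iterD n F := by
  have : -F = (-1 : ℂ) • F := by ext; simp
  rw [this, iterD_smul hF]
  ext; simp

theorem mdiff_sum {ι : Type*} (s : Finset ι) {F : ι → ℍ → ℂ} (hF : ∀ i ∈ s, MDiff (F i)) :
    MDiff (∑ i ∈ s, F i) := by
  classical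
  induction s using Finset.induction_on with
  | empty =>
    simp only [Finset.sum_empty]
    exact mdifferentiable_const
  | insert i t hi ih =>
    rw [Finset.sum_insert hi]
    exact (hF i (Finset.mem_insert_self i t)).add
      (ih fun j hj => hF j (Finset.mem_insert_of_mem hj))

theorem iterD_sum {ι : Type*} (s : Finset ι) {F : ι → ℍ → ℂ} (hF : ∀ i ∈ s, MDiff (F i))
    (n : ℕ) : iterD n (∑ i ∈ s, F i) = ∑ i ∈ s, iterD n (F i) := by
  classical
  induction s using Finset.induction_on with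
  | empty => simp [iterD_zero_fun]
  | insert i t hi ih =>
    rw [Finset.sum_insert hi, Finset.sum_insert hi,
      iterD_add (hF i (Finset.mem_insert_self i t))
        (mdiff_sum t fun j hj => hF j (Finset.mem_insert_of_mem hj)),
      ih fun j hj => hF j (Finset.mem_insert_of_mem hj)]

/-- The denominator function `z ↦ c z + d` on `ℍ`. -/
def denomFun (g : GL (Fin 2) ℝ) : ℍ → ℂ := fun z => denom g z

theorem denomFun_mdiff (g : GL (Fin 2) ℝ) : MDiff (denomFun g) := mdifferentiable_denom g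

theorem D_denomFun (g : GL (Fin 2) ℝ) :
    D (denomFun g) = fun _ => (2 * π * I)⁻¹ * (g 1 0 : ℂ) := by
  ext z
  simp only [normalizedDerivOfComplex]
  congr 1
  have h1 : HasDerivAt (fun w : ℂ => denom g w) (g 1 0 : ℂ) (z : ℂ) := by
    simpa [denom] using ((hasDerivAt_id (z : ℂ)).const_mul (g 1 0 : ℂ)).add_const (g 1 1 : ℂ)
  have h2 : (denomFun g ∘ ofComplex) =ᶠ[𝓝 (z : ℂ)] fun w : ℂ => denom g w := by
    filter_upwards [isOpen_upperHalfPlaneSet.mem_nhds z.im_pos] with w hw
    simp [denomFun, Function.comp_apply, ofComplex_apply_of_im_pos hw]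
  exact (h1.congr_of_eventuallyEq h2).deriv

/-- Leibniz rule for the product with the (affine) denominator function. -/
theorem iterD_denomFun_mul (g : GL (Fin 2) ℝ) {H : ℍ → ℂ} (hH : MDiff H) (j : ℕ) :
    iterD (j + 1) (denomFun g * H) =
      denomFun g * iterD (j + 1) H
        + ((j + 1 : ℂ) * ((2 * π * I)⁻¹ * (g 1 0 : ℂ))) • iterD j H := by
  induction j with
  | zero =>
    rw [zero_add, iterD_one, iterD_one, iterD_zero,
      normalizedDerivOfComplex_mul _ _ (denomFun_mdiff g) hH, D_denomFun]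
    ext z
    simp only [Pi.add_apply, Pi.mul_apply, Pi.smul_apply, smul_eq_mul]
    push_cast
    ring
  | succ j ih =>
    rw [iterD_succ (j + 1), ih]
    have h1 : MDiff (denomFun g * iterD (j + 1) H) :=
      (denomFun_mdiff g).mul (iterD_mdiff hH _)
    have h2 : MDiff (((j + 1 : ℂ) * ((2 * π * I)⁻¹ * (g 1 0 : ℂ))) • iterD j H) :=
      (iterD_mdiff hH j).const_smul _
    rw [normalizedDerivOfComplex_add _ _ h1 h2,
      normalizedDerivOfComplex_mul _ _ (denomFun_mdiff g) (iterD_mdiff hH _),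
      normalizedDerivOfComplex_smul _ _ (iterD_mdiff hH j), D_denomFun,
      ← iterD_succ, ← iterD_succ]
    ext z
    simp only [Pi.add_apply, Pi.mul_apply, Pi.smul_apply, smul_eq_mul]
    push_cast
    ring

theorem sigma_eq_of_det_pos {g : GL (Fin 2) ℝ} (hg : 0 < g.val.det) (x : ℂ) : σ g x = x := by
  have hdet : g.det.val = g.val.det := Matrix.GeneralLinearGroup.val_det_apply g
  simp [σ, hdet, hg]

theorem slash_apply_of_det_pos {g : GL (Fin 2) ℝ} (hg : 0 < g.val.det) (w : ℤ) (F : ℍ → ℂ)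
    (z : ℍ) : (F ∣[w] g) z = F (g • z) * (g.val.det : ℂ) ^ (w - 1) * denom g z ^ (-w) := by
  have hdet : g.det.val = g.val.det := Matrix.GeneralLinearGroup.val_det_apply g
  rw [ModularForm.slash_apply, sigma_eq_of_det_pos hg, hdet, abs_of_pos hg]

/-- Lowering the weight by one multiplies by `det⁻¹ * (c z + d)`. -/
theorem slash_pred_weight {g : GL (Fin 2) ℝ} (hg : 0 < g.val.det) (w : ℤ) (F : ℍ → ℂ) :
    F ∣[w - 1] g = ((g.val.det : ℂ)⁻¹) • (denomFun g * F ∣[w] g) := by
  have hdetℂ : (g.val.det : ℂ) ≠ 0 := Complex.ofReal_ne_zero.mpr hg.ne'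
  ext z
  have hz := denom_ne_zero g z
  simp only [Pi.smul_apply, Pi.mul_apply, smul_eq_mul, slash_apply_of_det_pos hg, denomFun]
  rw [show w - 1 - 1 = (w - 1) - 1 by ring, zpow_sub_one₀ hdetℂ,
    show -(w - 1) = -w + 1 by ring, zpow_add_one₀ hz]
  ring

/-- **Bol's identity**: `D^n (F ∣[1 - n] g) = det⁻ⁿ • (D^n F) ∣[n + 1] g`. -/
theorem bol {g : GL (Fin 2) ℝ} (hg : 0 < g.val.det) (n : ℕ) :
    ∀ {F : ℍ → ℂ}, MDiff F →
      iterD n (F ∣[(1 : ℤ) - n] g) = ((g.val.det : ℂ)⁻¹) ^ n • ((iterD n F) ∣[(n : ℤ) + 1] g) := by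
  have hdetℂ : (g.val.det : ℂ) ≠ 0 := Complex.ofReal_ne_zero.mpr hg.ne'
  induction n with
  | zero =>
    intro F _
    simp
  | succ n ih =>
    intro F hF
    set H : ℍ → ℂ := F ∣[(1 : ℤ) - n] g with hH
    have hHm : MDiff H := hF.slash _ g
    have e1 : F ∣[(1 : ℤ) - (n + 1 : ℕ)] g = ((g.val.det : ℂ)⁻¹) • (denomFun g * H) := by
      rw [hH, ← slash_pred_weight hg]
      congr 1
      push_cast
      ring
    rw [e1, iterD_smul ((denomFun_mdiff g).mul hHm), iterD_denomFun_mul g hHm n]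
    have ihF := ih hF
    rw [← hH] at ihF
    set B : ℍ → ℂ := (iterD n F) ∣[(n : ℤ) + 1] g with hB
    have hBm : MDiff B := (iterD_mdiff hF n).slash _ g
    have e2 : iterD (n + 1) H = ((g.val.det : ℂ)⁻¹) ^ n • D B := by
      rw [iterD_succ, ihF, normalizedDerivOfComplex_smul _ _ hBm]
    have e3 := normalizedDerivOfComplex_slash (k := (n : ℤ) + 1) (iterD_mdiff hF n) hg
    rw [← hB, ← iterD_succ] at e3
    have e4 : (iterD (n + 1) F) ∣[(n : ℤ) + 1 + 2] g
        = (g.val.det : ℂ) • (fun z : ℍ => (denom g z)⁻¹ * ((iterD (n + 1) F) ∣[((n + 1 : ℕ) : ℤ) + 1] g) z) := by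
      have := slash_pred_weight hg ((n : ℤ) + 1 + 2) (iterD (n + 1) F)
      rw [show ((n : ℤ) + 1 + 2 - 1) = ((n + 1 : ℕ) : ℤ) + 1 by push_cast; ring] at this
      rw [this]
      ext z
      have hz := denom_ne_zero g z
      simp only [Pi.smul_apply, Pi.mul_apply, smul_eq_mul, denomFun]
      field_simp
    rw [e2, ihF, e3, e4, pow_succ]
    ext z
    have hz := denom_ne_zero g z
    simp only [Pi.smul_apply, Pi.mul_apply, Pi.add_apply, smul_eq_mul, denomFun]
    generalize ((g.val.det : ℂ)⁻¹) ^ n = E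
    push_cast
    field_simp
    ring

end

end Fermat.Agent.S22.H76
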