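import Mathlib.NumberTheory.ModularForms.QExpansion
import Mathlib.NumberTheory.ModularForms.NormTrace
import Mathlib.Analysis.Complex.HasPrimitives
import Fermat.Agent.S22.H76_Bol

/-!
# "Nice" functions on the upper half plane and their periodic primitives (helper76, S22)

`IsNice h F`: `F` is holomorphic on `ℍ`, `h`-periodic and tends to `0` at `i∞`.
Main facts:
* `IsNice.exists_primitive` : a nice function has a nice primitive (w.r.t. `D = (2πi)⁻¹ d/dz`);
* `IsNice.eq_zero_of_iterD_eq_zero` : a nice function with `D^n F = 0` is `0`;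
* `exists_poly_of_iterD_eq_zero` : a holomorphic function with `D^n F = 0` is a polynomial of degree `< n`.
-/

namespace Fermat.Agent.S22.H76

open UpperHalfPlane hiding I
open Real Complex Derivative Filter Function
open scoped Manifold MatrixGroups ModularForm Topology

noncomputable section

/-- `F` is holomorphic on `ℍ`, `h`-periodic and zero at `i∞`. -/
structure IsNice (h : ℝ) (F : ℍ → ℂ) : Prop where
  mdiff : MDiff F
  periodic : Periodic (F ∘ ofComplex) h
  zero : IsZeroAtImInfty F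

theorem IsNice.add {h : ℝ} {F G : ℍ → ℂ} (hF : IsNice h F) (hG : IsNice h G) :
    IsNice h (F + G) where
  mdiff := hF.mdiff.add hG.mdiff
  periodic := fun z => by
    have h1 := hF.periodic z
    have h2 := hG.periodic z
    simp only [Function.comp_apply, Pi.add_apply] at h1 h2 ⊢
    rw [h1, h2]
  zero := by
    have := hF.zero.add hG.zero
    simpa [IsZeroAtImInfty, ZeroAtFilter] using this

theorem IsNice.smul {h : ℝ} {F : ℍ → ℂ} (hF : IsNice h F) (c : ℂ) :
    IsNice h (c • F) where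
  mdiff := hF.mdiff.const_smul c
  periodic := fun z => by
    have h1 := hF.periodic z
    simp only [Function.comp_apply, Pi.smul_apply] at h1 ⊢
    rw [h1]
  zero := by
    have := hF.zero.smul c
    simpa [IsZeroAtImInfty, ZeroAtFilter] using this

theorem IsNice.neg {h : ℝ} {F : ℍ → ℂ} (hF : IsNice h F) : IsNice h (-F) := by
  have := hF.smul (-1)
  simpa using this

theorem IsNice.sub {h : ℝ} {F G : ℍ → ℂ} (hF : IsNice h F) (hG : IsNice h G) :
    IsNice h (F - G) := by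
  rw [sub_eq_add_neg]
  exact hF.add hG.neg

theorem isNice_zero (h : ℝ) : IsNice h (0 : ℍ → ℂ) where
  mdiff := mdifferentiable_const
  periodic := fun z => rfl
  zero := (tendsto_const_nhds : Tendsto (fun _ : ℍ => (0:ℂ)) atImInfty (𝓝 0))

local notation "𝕢" => Periodic.qParam

theorem hasDerivAt_qParam (h : ℝ) (z : ℂ) :
    HasDerivAt (𝕢 h) (𝕢 h z * (2 * π * I / h)) z := by
  unfold Periodic.qParam
  have h1 : HasDerivAt (fun w : ℂ => 2 * π * I * w / h) (2 * π * I / h) z := by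
    have := ((hasDerivAt_id z).const_mul (2 * π * I)).div_const (h : ℂ)
    simpa using this
  exact h1.cexp

theorem qParam_add_period {h : ℝ} (hh : h ≠ 0) (z : ℂ) : 𝕢 h (z + h) = 𝕢 h z := by
  unfold Periodic.qParam
  have hh' : (h : ℂ) ≠ 0 := by exact_mod_cast hh
  have : 2 * π * I * (z + h) / h = 2 * π * I * z / h + 2 * π * I := by
    field_simp
  rw [this, Complex.exp_add, Complex.exp_two_pi_mul_I, mul_one]

theorem periodic_comp_ofComplex_of_qParam {h : ℝ} (hh : h ≠ 0) (Ψ : ℂ → ℂ) :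
    Periodic ((fun z : ℍ => Ψ (𝕢 h z)) ∘ ofComplex) h := by
  intro w
  simp only [Function.comp_apply]
  by_cases hw : 0 < w.im
  · have hw' : 0 < (w + h).im := by simpa using hw
    rw [ofComplex_apply_of_im_pos hw, ofComplex_apply_of_im_pos hw']
    show Ψ (𝕢 h (w + h)) = Ψ (𝕢 h w)
    rw [qParam_add_period hh]
  · have hw1 : w.im ≤ 0 := not_lt.mp hw
    have hw' : (w + h).im ≤ 0 := by simpa using hw1
    rw [ofComplex_apply_eq_of_im_nonpos hw' hw1]

/-- A nice function has a nice primitive. -/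
theorem IsNice.exists_primitive {h : ℝ} (hh : 0 < h) {φ : ℍ → ℂ} (hφ : IsNice h φ) :
    ∃ ψ : ℍ → ℂ, IsNice h ψ ∧ D ψ = φ := by
  set Φ : ℂ → ℂ := cuspFunction h φ with hΦdef
  have hΦ : DifferentiableOn ℂ Φ (Metric.ball 0 1) :=
    differentiableOn_cuspFunction_ball hh hφ.periodic hφ.mdiff hφ.zero.isBoundedAtImInfty
  have hΦ0 : Φ 0 = 0 := hφ.zero.cuspFunction_apply_zero hh
  have hball : Metric.ball (0 : ℂ) 1 ∈ 𝓝 (0 : ℂ) := Metric.ball_mem_nhds 0 one_pos
  have hg : DifferentiableOn ℂ (dslope Φ 0) (Metric.ball 0 1) :=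
    (Complex.differentiableOn_dslope hball).mpr hΦ
  obtain ⟨Ψ, hΨ0, hΨ⟩ := (hg.isExactOn_ball).with_val_at 0 0
  have hq1 : ∀ z : ℍ, 𝕢 h (z : ℂ) ∈ Metric.ball (0 : ℂ) 1 := fun z => by
    rw [mem_ball_zero_iff]
    exact Periodic.norm_qParam_lt_one hh z.im_pos
  -- derivative of the composite
  have hderiv : ∀ z : ℍ, HasDerivAt (fun w : ℂ => (h : ℂ) * Ψ (𝕢 h w)) (2 * π * I * φ z) (z : ℂ) := by
    intro z
    have h1 := hΨ _ (hq1 z)
    have h2 := hasDerivAt_qParam h (z : ℂ)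
    have h3 := (h1.comp (z : ℂ) h2).const_mul (h : ℂ)
    have hqne : 𝕢 h (z : ℂ) ≠ 0 := Periodic.qParam_ne_zero _
    have hval : dslope Φ 0 (𝕢 h (z : ℂ)) * 𝕢 h (z : ℂ) = φ z := by
      rw [dslope_of_ne _ hqne, slope_def_field, hΦ0, sub_zero, sub_zero,
        div_mul_cancel₀ _ hqne, hΦdef, eq_cuspFunction z hh.ne' hφ.periodic]
    have hh' : (h : ℂ) ≠ 0 := by exact_mod_cast hh.ne'
    have h4 : (h : ℂ) * (dslope Φ 0 (𝕢 h (z : ℂ)) * (𝕢 h (z : ℂ) * (2 * π * I / h)))
        = 2 * π * I * φ z := by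
      rw [← hval]
      field_simp
    rw [← h4]
    exact h3
  have hev : ∀ z : ℍ, ((fun z : ℍ => (h : ℂ) * Ψ (𝕢 h z)) ∘ ofComplex) =ᶠ[𝓝 (z : ℂ)]
      fun w : ℂ => (h : ℂ) * Ψ (𝕢 h w) := by
    intro z
    filter_upwards [isOpen_upperHalfPlaneSet.mem_nhds z.im_pos] with w hw
    simp [Function.comp_apply, ofComplex_apply_of_im_pos hw]
  refine ⟨fun z : ℍ => (h : ℂ) * Ψ (𝕢 h z), ⟨?_, ?_, ?_⟩, ?_⟩
  · -- holomorphic
    intro z
    rw [UpperHalfPlane.mdifferentiableAt_iff]
    exact ((hderiv z).congr_of_eventuallyEq (hev z)).differentiableAt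
  · -- periodic
    have := periodic_comp_ofComplex_of_qParam hh.ne' (fun q => (h : ℂ) * Ψ q)
    exact this
  · -- zero at infinity
    have hcont : ContinuousAt Ψ 0 := (hΨ 0 (Metric.mem_ball_self one_pos)).continuousAt
    have h1 : Tendsto (fun τ : ℍ => Ψ (𝕢 h τ)) atImInfty (𝓝 (Ψ 0)) :=
      hcont.tendsto.comp (qParam_tendsto_atImInfty hh)
    rw [hΨ0] at h1
    have h2 := h1.const_mul (h : ℂ)
    rw [mul_zero] at h2
    exact h2
  · -- derivative
    ext z
    simp only [normalizedDerivOfComplex]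
    rw [((hderiv z).congr_of_eventuallyEq (hev z)).deriv]
    have : (2 * π * I : ℂ) ≠ 0 := by
      simp [Real.pi_ne_zero, Complex.I_ne_zero]
    field_simp

/-- A nice function has a nice `n`-fold primitive. -/
theorem IsNice.exists_iterated_primitive {h : ℝ} (hh : 0 < h) (n : ℕ) :
    ∀ {φ : ℍ → ℂ}, IsNice h φ → ∃ ψ : ℍ → ℂ, IsNice h ψ ∧ iterD n ψ = φ := by
  induction n with
  | zero => exact fun {φ} hφ => ⟨φ, hφ, rfl⟩
  | succ n ih =>
    intro φ hφ
    obtain ⟨ψ₁, hψ₁, h1⟩ := hφ.exists_primitive hh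
    obtain ⟨ψ, hψ, h2⟩ := ih hψ₁
    exact ⟨ψ, hψ, by rw [iterD_succ, h2, h1]⟩

end

end Fermat.Agent.S22.H76
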