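import Mathlib
import Fermat.Prelude.Def_CuspForm_HeckeAlgebra
import Fermat.Prelude.Thm_ModularForm_periodic_heckeT_comp_ofComplex
import Fermat.Prelude.Thm_ModularForm_periodic_heckeU_comp_ofComplex
import Fermat.Agent.S22.H76_Nice

/-!
# S22, E3: Hecke relation for nice iterated primitives (helper21)

If `G` is nice (holomorphic, 1-periodic, zero at `i∞`) with `D^(n+1) G = f`, then
`p^(n+1) • heckeT (-n) p G` is nice with `D^(n+1)` equal to `heckeT (n+2) p f`;
likewise for `heckeU`.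
-/

set_option autoImplicit false

namespace Fermat.Agent.S22.H21

open UpperHalfPlane hiding I
open Real Complex Derivative Filter Function
open scoped Manifold MatrixGroups ModularForm Topology
open Fermat.Agent.S22.H76

theorem det_heckeMatrix_val {p : ℕ} (hp : p ≠ 0) (j : ℕ) :
    (ModularForm.heckeMatrix p j).val.det = p := by
  rw [← Matrix.GeneralLinearGroup.val_det_apply]
  exact ModularForm.det_heckeMatrix hp j

theorem det_heckeDiagMatrix_val {p : ℕ} (hp : p ≠ 0) :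
    (ModularForm.heckeDiagMatrix p).val.det = p := by
  rw [← Matrix.GeneralLinearGroup.val_det_apply]
  exact ModularForm.det_heckeDiagMatrix hp

theorem heckeMatrix_one_zero {p : ℕ} (hp : p ≠ 0) (j : ℕ) :
    (ModularForm.heckeMatrix p j) 1 0 = 0 := by
  have := ModularForm.val_heckeMatrix hp j
  have h : (ModularForm.heckeMatrix p j) 1 0 = (ModularForm.heckeMatrix p j).val 1 0 := rfl
  rw [h, this]
  simp

theorem heckeDiagMatrix_one_zero {p : ℕ} (hp : p ≠ 0) :
    (ModularForm.heckeDiagMatrix p) 1 0 = 0 := by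
  have := ModularForm.val_heckeDiagMatrix hp
  have h : (ModularForm.heckeDiagMatrix p) 1 0 = (ModularForm.heckeDiagMatrix p).val 1 0 := rfl
  rw [h, this]
  simp

/-- Bol's identity in the form needed: `D^(n+1) (G ∣[-n] g) = det⁻⁽ⁿ⁺¹⁾ • (D^(n+1) G) ∣[n+2] g`. -/
theorem bol' {g : GL (Fin 2) ℝ} (hg : 0 < g.val.det) (n : ℕ) {G : ℍ → ℂ} (hG : MDiff G) :
    iterD (n + 1) (G ∣[-(n : ℤ)] g) =
      ((g.val.det : ℂ)⁻¹) ^ (n + 1) • ((iterD (n + 1) G) ∣[(n : ℤ) + 2] g) := by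
  have h := bol hg (n + 1) hG
  have e1 : (1 : ℤ) - ((n + 1 : ℕ) : ℤ) = -(n : ℤ) := by push_cast; ring
  have e2 : (((n + 1 : ℕ) : ℤ)) + 1 = (n : ℤ) + 2 := by push_cast; ring
  rw [e1, e2] at h
  exact h

theorem iterD_slash_heckeMatrix {p : ℕ} (hp : p ≠ 0) (j : ℕ) (n : ℕ) {G : ℍ → ℂ} (hG : MDiff G) :
    ((p : ℂ) ^ (n + 1)) • iterD (n + 1) (G ∣[-(n : ℤ)] ModularForm.heckeMatrix p j) =
      (iterD (n + 1) G) ∣[(n : ℤ) + 2] ModularForm.heckeMatrix p j := by
  have hdet : (ModularForm.heckeMatrix p j).val.det = p := det_heckeMatrix_val hp j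
  have hpos : 0 < (ModularForm.heckeMatrix p j).val.det := by
    rw [hdet]; exact_mod_cast Nat.pos_of_ne_zero hp
  have hp' : (p : ℂ) ≠ 0 := by exact_mod_cast hp
  rw [bol' hpos n hG, hdet, smul_smul]
  have : (p : ℂ) ^ (n + 1) * (((p : ℝ) : ℂ)⁻¹) ^ (n + 1) = 1 := by
    rw [← mul_pow]
    simp [hp']
  rw [this, one_smul]

theorem iterD_slash_heckeDiagMatrix {p : ℕ} (hp : p ≠ 0) (n : ℕ) {G : ℍ → ℂ} (hG : MDiff G) :
    ((p : ℂ) ^ (n + 1)) • iterD (n + 1) (G ∣[-(n : ℤ)] ModularForm.heckeDiagMatrix p) =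
      (iterD (n + 1) G) ∣[(n : ℤ) + 2] ModularForm.heckeDiagMatrix p := by
  have hdet : (ModularForm.heckeDiagMatrix p).val.det = p := det_heckeDiagMatrix_val hp
  have hpos : 0 < (ModularForm.heckeDiagMatrix p).val.det := by
    rw [hdet]; exact_mod_cast Nat.pos_of_ne_zero hp
  have hp' : (p : ℂ) ≠ 0 := by exact_mod_cast hp
  rw [bol' hpos n hG, hdet, smul_smul]
  have : (p : ℂ) ^ (n + 1) * (((p : ℝ) : ℂ)⁻¹) ^ (n + 1) = 1 := by
    rw [← mul_pow]
    simp [hp']
  rw [this, one_smul]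

theorem isZeroAtImInfty_sum {ι : Type*} (s : Finset ι) {F : ι → ℍ → ℂ}
    (hF : ∀ i ∈ s, IsZeroAtImInfty (F i)) : IsZeroAtImInfty (∑ i ∈ s, F i) := by
  classical
  induction s using Finset.induction_on with
  | empty =>
    simp only [Finset.sum_empty]
    exact (tendsto_const_nhds : Tendsto (fun _ : ℍ => (0 : ℂ)) atImInfty (𝓝 0))
  | insert i t hi ih =>
    rw [Finset.sum_insert hi]
    have h1 := hF i (Finset.mem_insert_self i t)
    have h2 := ih fun j hj => hF j (Finset.mem_insert_of_mem hj)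
    have := h1.add h2
    simpa [IsZeroAtImInfty, ZeroAtFilter] using this

theorem isZeroAtImInfty_heckeU {G : ℍ → ℂ} (hG : IsZeroAtImInfty G) (k : ℤ) {p : ℕ} (hp : p ≠ 0) :
    IsZeroAtImInfty (ModularForm.heckeU k p G) := by
  rw [ModularForm.heckeU_def]
  exact isZeroAtImInfty_sum _ fun j _ => hG.slash k (heckeMatrix_one_zero hp j)

theorem isZeroAtImInfty_heckeT {G : ℍ → ℂ} (hG : IsZeroAtImInfty G) (k : ℤ) {p : ℕ} (hp : p ≠ 0) :
    IsZeroAtImInfty (ModularForm.heckeT k p G) := by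
  rw [ModularForm.heckeT_eq_heckeU_add]
  have h1 := isZeroAtImInfty_heckeU hG k hp
  have h2 : IsZeroAtImInfty (G ∣[k] ModularForm.heckeDiagMatrix p) :=
    hG.slash k (heckeDiagMatrix_one_zero hp)
  have := h1.add h2
  simpa [IsZeroAtImInfty, ZeroAtFilter] using this

/-- **E3 for `U_p`** (def-independent form). -/
theorem isNice_heckeU {G : ℍ → ℂ} (hG : IsNice 1 G) (n : ℕ) {p : ℕ} (hp : p ≠ 0) :
    IsNice 1 (((p : ℂ) ^ (n + 1)) • ModularForm.heckeU (-(n : ℤ)) p G) :=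
  IsNice.smul
    ⟨ModularForm.mdifferentiable_heckeU hG.mdiff _ p,
      ModularForm.periodic_heckeU_comp_ofComplex hG.periodic _ p,
      isZeroAtImInfty_heckeU hG.zero _ hp⟩ _

theorem iterD_heckeU {G : ℍ → ℂ} (hG : MDiff G) (n : ℕ) {p : ℕ} (hp : p ≠ 0) :
    iterD (n + 1) (((p : ℂ) ^ (n + 1)) • ModularForm.heckeU (-(n : ℤ)) p G) =
      ModularForm.heckeU ((n : ℤ) + 2) p (iterD (n + 1) G) := by
  rw [iterD_smul (ModularForm.mdifferentiable_heckeU hG _ p), ModularForm.heckeU_def,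
    ModularForm.heckeU_def, iterD_sum _ (fun j _ => hG.slash _ _), Finset.smul_sum]
  exact Finset.sum_congr rfl fun j _ => iterD_slash_heckeMatrix hp j n hG

/-- **E3 for `T_p`** (def-independent form). -/
theorem isNice_heckeT {G : ℍ → ℂ} (hG : IsNice 1 G) (n : ℕ) {p : ℕ} (hp : p ≠ 0) :
    IsNice 1 (((p : ℂ) ^ (n + 1)) • ModularForm.heckeT (-(n : ℤ)) p G) :=
  IsNice.smul
    ⟨ModularForm.mdifferentiable_heckeT hG.mdiff _ p,
      ModularForm.periodic_heckeT_comp_ofComplex hG.periodic _ p,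
      isZeroAtImInfty_heckeT hG.zero _ hp⟩ _

theorem iterD_heckeT {G : ℍ → ℂ} (hG : MDiff G) (n : ℕ) {p : ℕ} (hp : p ≠ 0) :
    iterD (n + 1) (((p : ℂ) ^ (n + 1)) • ModularForm.heckeT (-(n : ℤ)) p G) =
      ModularForm.heckeT ((n : ℤ) + 2) p (iterD (n + 1) G) := by
  have hU := iterD_heckeU hG n hp
  rw [iterD_smul (ModularForm.mdifferentiable_heckeU hG _ p)] at hU
  rw [iterD_smul (ModularForm.mdifferentiable_heckeT hG _ p), ModularForm.heckeT_eq_heckeU_add,
    ModularForm.heckeT_eq_heckeU_add,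
    iterD_add (ModularForm.mdifferentiable_heckeU hG _ p) (hG.slash _ _), smul_add, hU,
    iterD_slash_heckeDiagMatrix hp n hG]

end Fermat.Agent.S22.H21
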