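import Fermat.Agent.S22.H76_Poly
import Fermat.Prelude.Def_CuspForm_HeckeAlgebra
import Fermat.Prelude.Thm_CongruenceSubgroup_one_mem_strictPeriods_Gamma0

/-!
# The Eichler integral of a cusp form on `Γ₀(N)` (helper76, S22)

`eichler n f` is the unique nice (holomorphic, `1`-periodic, zero at `i∞`) function with
`D^(n+1) (eichler n f) = f`, for `f` a cusp form of weight `n + 2`.
-/

set_option autoImplicit false

namespace Fermat.Agent.S22.H76

open UpperHalfPlane hiding I
open Real Complex Derivative Filter Function CongruenceSubgroup Matrix.SpecialLinearGroup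
open scoped Manifold MatrixGroups ModularForm Topology

noncomputable section

variable {N : ℕ} [NeZero N]

theorem isNice_cuspForm {k : ℤ} (f : CuspForm (Gamma0 N) k) : IsNice 1 (f : ℍ → ℂ) where
  mdiff := CuspFormClass.holo f
  periodic := SlashInvariantFormClass.periodic_comp_ofComplex f
    (CongruenceSubgroup.one_mem_strictPeriods_Gamma0 N)
  zero := CuspFormClass.zero_at_infty f

/-- `Bol`'s identity in the form used for weight `n + 2`. -/
theorem bol_weight {g : GL (Fin 2) ℝ} (hg : 0 < g.val.det) (n : ℕ) {F : ℍ → ℂ} (hF : MDiff F) :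
    iterD (n + 1) (F ∣[-(n : ℤ)] g)
      = ((g.val.det : ℂ)⁻¹) ^ (n + 1) • ((iterD (n + 1) F) ∣[(n : ℤ) + 2] g) := by
  have := bol hg (n + 1) hF
  rw [show (1 : ℤ) - ((n + 1 : ℕ) : ℤ) = -(n : ℤ) by push_cast; ring,
    show (((n + 1 : ℕ) : ℤ) + 1) = (n : ℤ) + 2 by push_cast; ring] at this
  exact this

theorem det_mapGL (γ : SL(2, ℤ)) : (mapGL ℝ γ : GL (Fin 2) ℝ).val.det = 1 := by
  rw [← Matrix.GeneralLinearGroup.val_det_apply]
  simp

theorem bol_SL (γ : SL(2, ℤ)) (n : ℕ) {F : ℍ → ℂ} (hF : MDiff F) :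
    iterD (n + 1) (F ∣[-(n : ℤ)] (mapGL ℝ γ))
      = (iterD (n + 1) F) ∣[(n : ℤ) + 2] (mapGL ℝ γ) := by
  have h1 : (0 : ℝ) < (mapGL ℝ γ : GL (Fin 2) ℝ).val.det := by rw [det_mapGL]; exact one_pos
  rw [bol_weight h1 n hF, det_mapGL]
  simp

theorem exists_eichler (n : ℕ) (f : CuspForm (Gamma0 N) ((n : ℤ) + 2)) :
    ∃ F : ℍ → ℂ, IsNice 1 F ∧ iterD (n + 1) F = f :=
  (isNice_cuspForm f).exists_iterated_primitive one_pos (n + 1)

/-- The Eichler integral. -/
def eichler (n : ℕ) (f : CuspForm (Gamma0 N) ((n : ℤ) + 2)) : ℍ → ℂ :=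
  (exists_eichler n f).choose

theorem eichler_isNice (n : ℕ) (f : CuspForm (Gamma0 N) ((n : ℤ) + 2)) :
    IsNice 1 (eichler n f) := (exists_eichler n f).choose_spec.1

theorem eichler_iterD (n : ℕ) (f : CuspForm (Gamma0 N) ((n : ℤ) + 2)) :
    iterD (n + 1) (eichler n f) = f := (exists_eichler n f).choose_spec.2

theorem eichler_unique (n : ℕ) (f : CuspForm (Gamma0 N) ((n : ℤ) + 2)) {F : ℍ → ℂ}
    (hF : IsNice 1 F) (h : iterD (n + 1) F = f) : F = eichler n f :=
  hF.eq_of_iterD_eq one_pos (eichler_isNice n f) (n + 1) (by rw [h, eichler_iterD])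

/-- The Eichler integral as a linear map. -/
def eichlerLin (n : ℕ) : CuspForm (Gamma0 N) ((n : ℤ) + 2) →ₗ[ℂ] (ℍ → ℂ) where
  toFun := eichler n
  map_add' f g := by
    symm
    apply eichler_unique
    · exact (eichler_isNice n f).add (eichler_isNice n g)
    · rw [iterD_add (eichler_isNice n f).mdiff (eichler_isNice n g).mdiff, eichler_iterD,
        eichler_iterD, FunLike.coe_add]
  map_smul' c f := by
    symm
    apply eichler_unique
    · exact (eichler_isNice n f).smul c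
    · rw [iterD_smul (eichler_isNice n f).mdiff, eichler_iterD, RingHom.id_apply]
      rfl

@[simp] theorem eichlerLin_apply (n : ℕ) (f : CuspForm (Gamma0 N) ((n : ℤ) + 2)) :
    eichlerLin n f = eichler n f := rfl

/-- Polynomiality of the period functions. -/
theorem eichler_poly (n : ℕ) (f : CuspForm (Gamma0 N) ((n : ℤ) + 2)) (g : SL(2, ℤ))
    (hg : g ∈ Gamma0 N) :
    ∃ P : Polynomial ℂ, P.natDegree ≤ n ∧
      ∀ z : ℍ, ((eichler n f) ∣[-(n : ℤ)] (mapGL ℝ g)) z - eichler n f z = P.eval (z : ℂ) := by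
  have hm := (eichler_isNice n f).mdiff
  have hm' : MDiff ((eichler n f) ∣[-(n : ℤ)] (mapGL ℝ g)) := hm.slash _ _
  have h0 : iterD (n + 1) ((eichler n f) ∣[-(n : ℤ)] (mapGL ℝ g) - eichler n f) = 0 := by
    rw [iterD_sub hm' hm, bol_SL g n hm, eichler_iterD]
    have := SlashInvariantFormClass.slash_action_eq f (mapGL ℝ g)
      (Subgroup.mem_map_of_mem (mapGL ℝ) hg)
    rw [this, sub_self]
  obtain ⟨P, hP, hPz⟩ := exists_poly_of_iterD_eq_zero (n + 1) (hm'.sub hm) h0
  refine ⟨P, ?_, fun z => by simpa using hPz z⟩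
  by_cases hP0 : P = 0
  · simp [hP0]
  · have := (Polynomial.degree_eq_natDegree hP0) ▸ hP
    have h2 : P.natDegree < n + 1 := by exact_mod_cast this
    omega

end

end Fermat.Agent.S22.H76
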