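import Mathlib
import Fermat.Prelude.Def_CuspForm_HeckeAlgebra
import Fermat.Agent.S22.Interface
import Fermat.Agent.S22.H76_Eichler
import Fermat.Agent.S22.H21_Hecke

/-!
# S22: glue — `EichlerData` from the Eichler integral `H76.eichler`, given separation (E4)
-/

set_option autoImplicit false

namespace Fermat.Agent.S22.H21

open UpperHalfPlane hiding I
open CongruenceSubgroup Matrix.SpecialLinearGroup
open scoped Manifold MatrixGroups ModularForm
open Fermat.Agent.S22.H76

variable {N : ℕ} [NeZero N]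

theorem eichler_heckeT (n : ℕ) {p : ℕ} (hp : p.Prime) (hpN : ¬ p ∣ N)
    (f : CuspForm (Gamma0 N) ((n : ℤ) + 2)) :
    eichler n (CuspForm.heckeTLin ((n : ℤ) + 2) hp hpN f) =
      ((p : ℂ) ^ (n + 1)) • ModularForm.heckeT (-(n : ℤ)) p (eichler n f) := by
  symm
  apply eichler_unique
  · exact isNice_heckeT (eichler_isNice n f) n hp.ne_zero
  · rw [iterD_heckeT (eichler_isNice n f).mdiff n hp.ne_zero, eichler_iterD]
    rfl

theorem eichler_heckeU (n : ℕ) {p : ℕ} (hp : p.Prime) (hpN : p ∣ N)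
    (f : CuspForm (Gamma0 N) ((n : ℤ) + 2)) :
    eichler n (CuspForm.heckeULin ((n : ℤ) + 2) hpN f) =
      ((p : ℂ) ^ (n + 1)) • ModularForm.heckeU (-(n : ℤ)) p (eichler n f) := by
  symm
  apply eichler_unique
  · exact isNice_heckeU (eichler_isNice n f) n hp.ne_zero
  · rw [iterD_heckeU (eichler_isNice n f).mdiff n hp.ne_zero, eichler_iterD]
    rfl

/-- The separation statement (E4), in def-independent form. -/
def SepStatement (N : ℕ) [NeZero N] (n : ℕ) : Prop :=
  ∀ (f : CuspForm (Gamma0 N) ((n : ℤ) + 2)) (G : ℍ → ℂ), IsNice 1 G → iterD (n + 1) G = f →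
    (∀ g : SL(2, ℤ), g ∈ Gamma0 N → G ∣[-(n : ℤ)] (mapGL ℝ g) = G) → f = 0

/-- `EichlerData` from separation. -/
noncomputable def eichlerDataOfSep (n : ℕ) (hsep : SepStatement N n) : EichlerData N n where
  E := eichlerLin n
  poly f g hg := eichler_poly n f g hg
  hecke_T _ hp hpN f := eichler_heckeT n hp hpN f
  hecke_U _ hp hpN f := eichler_heckeU n hp hpN f
  sep f h := hsep f (eichler n f) (eichler_isNice n f) (eichler_iterD n f) h

end Fermat.Agent.S22.H21
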