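import Fermat.Agent.S22.H76_Poly
import Fermat.Agent.S22.H76_Eichler
import Fermat.Prelude.Thm_Subgroup_IsArithmetic_exists_nat_mem_strictPeriods_conj

/-!
# S22 / helper94: separation (field `sep` of `EichlerData`), definition-independent form

If `G : ℍ → ℂ` is holomorphic, `D^(n+1) G = f` for a cusp form `f` of weight `n + 2` on `Γ₀(N)`
and `G ∣[-n] γ = G` for all `γ ∈ Γ₀(N)`, then `f = 0`.

Proof: for `σ ∈ SL(2, ℤ)`, `G ∣[-n] σ` differs from a nice iterated primitive of `f ∣[n+2] σ` by a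
polynomial (Bol), which is periodic, hence constant. So `G` is a modular form of weight `-n ≤ 0`.
-/

set_option autoImplicit false

namespace Fermat.Agent.S22.H94

open UpperHalfPlane hiding I
open Real Complex Derivative Filter Function CongruenceSubgroup Matrix.SpecialLinearGroup
open scoped Manifold MatrixGroups ModularForm Topology Pointwise
open Fermat.Agent.S22.H76

noncomputable section

/-- Periodicity in the form `X (h +ᵥ z) = X z`. -/
theorem apply_vadd_of_periodic {X : ℍ → ℂ} {h : ℝ} (hX : Periodic (X ∘ ofComplex) h) (z : ℍ) :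
    X (h +ᵥ z) = X z := by
  have h1 := hX (z : ℂ)
  have hz : 0 < ((z : ℂ) + h).im := by simpa using z.im_pos
  simp only [comp_apply, ofComplex_apply_of_im_pos hz, ofComplex_apply] at h1
  rw [← h1]
  congr 1
  ext
  simp [add_comm]

/-- A slash-invariant function for `Γ`, slashed by `σ`, is periodic for every strict period of the
conjugate group. -/
theorem periodic_slash_of_invariant {Γ : Subgroup (GL (Fin 2) ℝ)} {X : ℍ → ℂ} {k : ℤ}
    (hX : ∀ γ ∈ Γ, X ∣[k] γ = X) (σ : GL (Fin 2) ℝ) {h : ℝ}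
    (hh : h ∈ (ConjAct.toConjAct σ⁻¹ • Γ).strictPeriods) :
    Periodic ((X ∣[k] σ) ∘ ofComplex) h := by
  let Xs : SlashInvariantForm Γ k := ⟨X, hX⟩
  have := SlashInvariantFormClass.periodic_comp_ofComplex (SlashInvariantForm.translate Xs σ) hh
  have e : ⇑(SlashInvariantForm.translate Xs σ) = X ∣[k] σ := SlashInvariantForm.coe_translate Xs σ
  rwa [e] at this

variable {N : ℕ} [NeZero N]

/-- Boundedness at `i∞` of all `SL(2, ℤ)`-translates of an invariant Eichler integral. -/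
theorem isBoundedAtImInfty_slash {n : ℕ} (f : CuspForm (Gamma0 N) ((n : ℤ) + 2)) {G : ℍ → ℂ}
    (hG : MDiff G) (hD : iterD (n + 1) G = f)
    (hinv : ∀ g : SL(2, ℤ), g ∈ Gamma0 N → G ∣[-(n : ℤ)] (mapGL ℝ g) = G) (σ : SL(2, ℤ)) :
    IsBoundedAtImInfty (G ∣[-(n : ℤ)] (mapGL ℝ σ)) := by
  obtain ⟨M, hMpos, hM⟩ := Subgroup.IsArithmetic.exists_nat_mem_strictPeriods_conj
    ((Gamma0 N : Subgroup SL(2, ℤ)) : Subgroup (GL (Fin 2) ℝ))
  have hMσ : (M : ℝ) ∈ (ConjAct.toConjAct (mapGL ℝ σ : GL (Fin 2) ℝ)⁻¹ •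
      ((Gamma0 N : Subgroup SL(2, ℤ)) : Subgroup (GL (Fin 2) ℝ))).strictPeriods := by
    have := hM σ⁻¹
    rwa [map_inv, ConjAct.toConjAct_inv] at this
  have hMpos' : (0 : ℝ) < (M : ℝ) := by exact_mod_cast hMpos
  have hinv' : ∀ γ ∈ ((Gamma0 N : Subgroup SL(2, ℤ)) : Subgroup (GL (Fin 2) ℝ)),
      G ∣[-(n : ℤ)] γ = G := by
    rintro γ ⟨g, hg, rfl⟩
    exact hinv g hg
  -- the translated cusp form
  set g : ℍ → ℂ := (f : ℍ → ℂ) ∣[(n : ℤ) + 2] (mapGL ℝ σ) with hg
  have hgzero : IsZeroAtImInfty g := by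
    exact CuspFormClass.zero_at_infty_slash (k := (n : ℤ) + 2) f σ
  have hgnice : IsNice (M : ℝ) g :=
    ⟨(CuspFormClass.holo f).slash _ _, periodic_slash_of_invariant
      (fun γ hγ => SlashInvariantFormClass.slash_action_eq f γ hγ) _ hMσ, hgzero⟩
  obtain ⟨E, hE, hDE⟩ := hgnice.exists_iterated_primitive hMpos' (n + 1)
  set H : ℍ → ℂ := G ∣[-(n : ℤ)] (mapGL ℝ σ) with hH
  have hHm : MDiff H := hG.slash _ _
  have hDH : iterD (n + 1) H = g := by rw [hH, bol_SL σ n hG, hD]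
  have h0 : iterD (n + 1) (H - E) = 0 := by
    rw [iterD_sub hHm hE.mdiff, hDH, hDE, sub_self]
  obtain ⟨P, -, hP⟩ := exists_poly_of_iterD_eq_zero (n + 1) (hHm.sub hE.mdiff) h0
  have hHper : Periodic (H ∘ ofComplex) (M : ℝ) := periodic_slash_of_invariant hinv' _ hMσ
  have hPper : ∀ z : ℍ, P.eval ((z : ℂ) + (M : ℝ)) = P.eval (z : ℂ) := by
    intro z
    have h1 := hP ((M : ℝ) +ᵥ z)
    have h2 := hP z
    simp only [Pi.sub_apply] at h1 h2
    rw [apply_vadd_of_periodic hHper, apply_vadd_of_periodic hE.periodic] at h1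
    rw [← h2, h1]
    congr 1
    simp [add_comm]
  obtain ⟨c, hc⟩ := poly_const_of_periodic P hMpos'.ne' hPper
  have hHE : H = E + fun _ => c := by
    funext z
    have h2 := hP z
    simp only [Pi.sub_apply, hc, Polynomial.eval_C] at h2
    simp only [Pi.add_apply]
    rw [← h2]; ring
  rw [hHE]
  exact hE.zero.isBoundedAtImInfty.add (Filter.const_boundedAtFilter _ c)

/-- A holomorphic `Γ₀(N)`-invariant function bounded at all cusps is a modular form. -/
theorem exists_modularForm {k : ℤ} {G : ℍ → ℂ} (hG : MDiff G)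
    (hinv : ∀ g : SL(2, ℤ), g ∈ Gamma0 N → G ∣[k] (mapGL ℝ g) = G)
    (hbdd : ∀ σ : SL(2, ℤ), IsBoundedAtImInfty (G ∣[k] (mapGL ℝ σ))) :
    ∃ F : ModularForm (Gamma0 N) k, (F : ℍ → ℂ) = G := by
  refine ⟨{ toFun := G
            slash_action_eq' := ?_
            holo' := hG
            bdd_at_cusps' := ?_ }, rfl⟩
  · rintro γ ⟨g, hg, rfl⟩
    exact hinv g hg
  · intro c hc
    rw [Subgroup.IsArithmetic.isCusp_iff_isCusp_SL2Z, isCusp_SL2Z_iff'] at hc
    obtain ⟨σ, rfl⟩ := hc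
    exact (OnePoint.isBoundedAt_iff rfl).mpr (hbdd σ)

/-- **Separation**: an Eichler integral all of whose period polynomials vanish comes from `f = 0`. -/
theorem sep {n : ℕ} (f : CuspForm (Gamma0 N) ((n : ℤ) + 2)) {G : ℍ → ℂ}
    (hG : MDiff G) (hD : iterD (n + 1) G = f)
    (hinv : ∀ g : SL(2, ℤ), g ∈ Gamma0 N → G ∣[-(n : ℤ)] (mapGL ℝ g) = G) : f = 0 := by
  have hbdd := isBoundedAtImInfty_slash f hG hD hinv
  have hf0 : (f : ℍ → ℂ) = 0 := by
    rcases Nat.eq_zero_or_pos n with hn | hn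
    · subst hn
      have hinv0 : ∀ g : SL(2, ℤ), g ∈ Gamma0 N → G ∣[(0 : ℤ)] (mapGL ℝ g) = G := by
        simpa using hinv
      have hbdd0 : ∀ σ : SL(2, ℤ), IsBoundedAtImInfty (G ∣[(0 : ℤ)] (mapGL ℝ σ)) := by
        simpa using hbdd
      obtain ⟨F, hF⟩ := exists_modularForm hG hinv0 hbdd0
      obtain ⟨c, hc⟩ := ModularForm.eq_const_of_weight_zero F
      rw [hF] at hc
      rw [← hD, hc]
      simp only [zero_add, iterD_one]
      exact normalizedDerivOfComplex_const c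
    · obtain ⟨F, hF⟩ := exists_modularForm hG hinv hbdd
      have hk : -(n : ℤ) < 0 := by
        have : (0 : ℤ) < n := by exact_mod_cast hn
        omega
      have hF0 := ModularForm.isZero_of_neg_weight hk F
      have hG0 : G = 0 := by rw [← hF, hF0]; rfl
      rw [← hD, hG0, iterD_zero_fun]
  exact DFunLike.coe_injective hf0

end

end Fermat.Agent.S22.H94
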