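import Fermat.Agent.S22.H76_Nice

/-!
# Functions killed by `D^n` are polynomials; uniqueness of nice primitives (helper76, S22)
-/

namespace Fermat.Agent.S22.H76

open UpperHalfPlane hiding I
open Real Complex Derivative Filter Function
open scoped Manifold MatrixGroups ModularForm Topology

noncomputable section

theorem two_pi_I_ne_zero' : (2 * π * I : ℂ) ≠ 0 := by
  simp [Real.pi_ne_zero, Complex.I_ne_zero]

/-- A holomorphic function on `ℍ` with `D F = 0` is constant. -/
theorem exists_const_of_D_eq_zero {F : ℍ → ℂ} (hF : MDiff F) (h : D F = 0) :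
    ∃ c : ℂ, ∀ z : ℍ, F z = c := by
  have hF' : DifferentiableOn ℂ (F ∘ ofComplex) upperHalfPlaneSet :=
    UpperHalfPlane.mdifferentiable_iff.mp hF
  have hd : upperHalfPlaneSet.EqOn (fderiv ℂ (F ∘ ofComplex)) 0 := by
    intro w hw
    have h1 : D F ⟨w, hw⟩ = 0 := by rw [h]; rfl
    simp only [normalizedDerivOfComplex] at h1
    have h2 : deriv (F ∘ ofComplex) w = 0 := by
      rcases mul_eq_zero.mp h1 with h3 | h3
      · exact absurd (inv_eq_zero.mp h3) two_pi_I_ne_zero'
      · exact h3
    ext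
    rw [fderiv_eq_smul_deriv, h2]
    simp
  obtain ⟨a, ha⟩ := isOpen_upperHalfPlaneSet.exists_is_const_of_fderiv_eq_zero
    (convex_halfSpace_im_gt 0).isPreconnected hF' hd
  refine ⟨a, fun z => ?_⟩
  have := ha (z : ℂ) z.im_pos
  simpa [Function.comp_apply, ofComplex_apply] using this

/-- polynomial functions on `ℍ` -/
def polyFun (P : Polynomial ℂ) : ℍ → ℂ := fun z => P.eval (z : ℂ)

theorem polyFun_hasDerivAt (P : Polynomial ℂ) (z : ℍ) :
    HasDerivAt (polyFun P ∘ ofComplex) (P.derivative.eval (z : ℂ)) (z : ℂ) := by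
  have h1 : HasDerivAt (fun w : ℂ => P.eval w) (P.derivative.eval (z : ℂ)) (z : ℂ) :=
    P.hasDerivAt _
  have h2 : (polyFun P ∘ ofComplex) =ᶠ[𝓝 (z : ℂ)] fun w : ℂ => P.eval w := by
    filter_upwards [isOpen_upperHalfPlaneSet.mem_nhds z.im_pos] with w hw
    simp [polyFun, Function.comp_apply, ofComplex_apply_of_im_pos hw]
  exact h1.congr_of_eventuallyEq h2

theorem polyFun_mdiff (P : Polynomial ℂ) : MDiff (polyFun P) := fun z => by
  rw [UpperHalfPlane.mdifferentiableAt_iff]
  exact (polyFun_hasDerivAt P z).differentiableAt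

theorem D_polyFun (P : Polynomial ℂ) :
    D (polyFun P) = (2 * π * I : ℂ)⁻¹ • polyFun P.derivative := by
  ext z
  simp only [normalizedDerivOfComplex, (polyFun_hasDerivAt P z).deriv, Pi.smul_apply,
    smul_eq_mul, polyFun]

/-- antiderivative of a polynomial of degree `< n`. -/
theorem exists_antideriv_poly (n : ℕ) (Q : Polynomial ℂ) (hQ : Q.degree < n) :
    ∃ R : Polynomial ℂ, R.derivative = Q ∧ R.degree < (n + 1 : ℕ) := by
  classical
  by_cases hQ0 : Q = 0
  · exact ⟨0, by simp [hQ0], by simp⟩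
  have hnat : Q.natDegree < n := by
    have := (Polynomial.degree_eq_natDegree hQ0) ▸ hQ
    exact_mod_cast this
  refine ⟨∑ i ∈ Finset.range n, Polynomial.C (Q.coeff i / ((i : ℂ) + 1)) * Polynomial.X ^ (i + 1),
    ?_, ?_⟩
  · rw [Polynomial.derivative_sum]
    conv_rhs => rw [Polynomial.as_sum_range' Q n hnat]
    refine Finset.sum_congr rfl fun i _ => ?_
    rw [Polynomial.derivative_C_mul, Polynomial.derivative_X_pow, Nat.add_sub_cancel,
      ← Polynomial.C_mul_X_pow_eq_monomial, ← mul_assoc, ← Polynomial.C_mul]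
    congr 2
    have : ((i : ℂ) + 1) ≠ 0 := by
      have : ((i + 1 : ℕ) : ℂ) ≠ 0 := Nat.cast_ne_zero.mpr (Nat.succ_ne_zero i)
      simpa using this
    push_cast
    field_simp
  · rw [← Polynomial.mem_degreeLT]
    refine Submodule.sum_mem _ fun i hi => ?_
    rw [Polynomial.mem_degreeLT]
    refine lt_of_le_of_lt (Polynomial.degree_C_mul_X_pow_le _ _) ?_
    have := Finset.mem_range.mp hi
    exact_mod_cast Nat.succ_lt_succ this

/-- A holomorphic function on `ℍ` killed by `D^n` is a polynomial of degree `< n`. -/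
theorem exists_poly_of_iterD_eq_zero (n : ℕ) :
    ∀ {F : ℍ → ℂ}, MDiff F → iterD n F = 0 →
      ∃ P : Polynomial ℂ, P.degree < n ∧ ∀ z : ℍ, F z = P.eval (z : ℂ) := by
  induction n with
  | zero =>
    intro F _ h
    refine ⟨0, by simp, fun z => ?_⟩
    rw [iterD_zero] at h
    simp [h]
  | succ n ih =>
    intro F hF h
    rw [iterD_succ'] at h
    obtain ⟨Q, hQ, hQz⟩ := ih (normalizedDerivOfComplex_mdifferentiable hF) h
    obtain ⟨R, hR, hRd⟩ := exists_antideriv_poly n Q hQ
    set G : ℍ → ℂ := F - (2 * π * I : ℂ) • polyFun R with hG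
    have hGm : MDiff G := hF.sub ((polyFun_mdiff R).const_smul _)
    have hDG : D G = 0 := by
      rw [hG, normalizedDerivOfComplex_sub _ _ hF ((polyFun_mdiff R).const_smul _),
        normalizedDerivOfComplex_smul _ _ (polyFun_mdiff R), D_polyFun, hR]
      ext z
      simp only [Pi.sub_apply, Pi.smul_apply, smul_eq_mul, Pi.zero_apply, polyFun, hQz z]
      have := two_pi_I_ne_zero'
      field_simp
      ring
    obtain ⟨c, hc⟩ := exists_const_of_D_eq_zero hGm hDG
    refine ⟨Polynomial.C (2 * π * I : ℂ) * R + Polynomial.C c, ?_, fun z => ?_⟩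
    · refine lt_of_le_of_lt (Polynomial.degree_add_le _ _) (max_lt ?_ ?_)
      · rw [← Polynomial.smul_eq_C_mul]
        exact lt_of_le_of_lt (Polynomial.degree_smul_le _ _) hRd
      · refine lt_of_le_of_lt Polynomial.degree_C_le ?_
        exact_mod_cast Nat.succ_pos n
    · have := hc z
      simp only [hG, Pi.sub_apply, Pi.smul_apply, smul_eq_mul, polyFun] at this
      simp only [Polynomial.eval_add, Polynomial.eval_mul, Polynomial.eval_C]
      linear_combination this

/-- A polynomial which is `h`-periodic on `ℍ` (`h ≠ 0`) is constant. -/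
theorem poly_const_of_periodic (P : Polynomial ℂ) {h : ℝ} (hh : h ≠ 0)
    (hP : ∀ z : ℍ, P.eval ((z : ℂ) + h) = P.eval (z : ℂ)) : ∃ c : ℂ, P = Polynomial.C c := by
  refine ⟨P.eval I, ?_⟩
  have key : ∀ m : ℕ, P.eval (I + (m : ℂ) * h) = P.eval I := by
    intro m
    induction m with
    | zero => simp
    | succ m ih =>
      have him : 0 < (I + (m : ℂ) * (h : ℂ)).im := by simp
      have := hP ⟨_, him⟩
      rw [← ih, ← this]
      congr 1
      simp only [UpperHalfPlane.coe_mk]
      push_cast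
      ring
  have hinj : Function.Injective (fun m : ℕ => I + (m : ℂ) * (h : ℂ)) := by
    intro a b hab
    simp only [add_right_inj] at hab
    have h1 : (h : ℂ) ≠ 0 := by exact_mod_cast hh
    have := mul_right_cancel₀ h1 hab
    exact_mod_cast this
  have hroots : (Set.range fun m : ℕ => I + (m : ℂ) * (h : ℂ)) ⊆
      {x | (P - Polynomial.C (P.eval I)).IsRoot x} := by
    rintro _ ⟨m, rfl⟩
    simp only [Set.mem_ofPred_eq, Polynomial.IsRoot.def, Polynomial.eval_sub, Polynomial.eval_C]
    rw [key m, sub_self]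
  have hinf : Set.Infinite {x | (P - Polynomial.C (P.eval I)).IsRoot x} :=
    (Set.infinite_range_of_injective hinj).mono hroots
  have := Polynomial.eq_zero_of_infinite_isRoot _ hinf
  exact sub_eq_zero.mp this

/-- Uniqueness of nice iterated primitives. -/
theorem IsNice.eq_zero_of_iterD_eq_zero {h : ℝ} (hh : 0 < h) {F : ℍ → ℂ} (hF : IsNice h F)
    (n : ℕ) (h0 : iterD n F = 0) : F = 0 := by
  obtain ⟨P, -, hP⟩ := exists_poly_of_iterD_eq_zero n hF.mdiff h0
  have hper : ∀ z : ℍ, P.eval ((z : ℂ) + h) = P.eval (z : ℂ) := by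
    intro z
    have h1 := hF.periodic (z : ℂ)
    have him : 0 < ((z : ℂ) + h).im := by simpa using z.im_pos
    simp only [Function.comp_apply, ofComplex_apply, ofComplex_apply_of_im_pos him] at h1
    rw [hP, hP] at h1
    exact h1
  obtain ⟨c, hc⟩ := poly_const_of_periodic P hh.ne' hper
  have hFc : F = fun _ => c := by
    ext z
    rw [hP z, hc, Polynomial.eval_C]
  have h1 : Tendsto F atImInfty (𝓝 0) := hF.zero
  rw [hFc] at h1
  have h2 : c = 0 := tendsto_nhds_unique tendsto_const_nhds h1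
  rw [hFc, h2]
  rfl

theorem IsNice.eq_of_iterD_eq {h : ℝ} (hh : 0 < h) {F G : ℍ → ℂ} (hF : IsNice h F)
    (hG : IsNice h G) (n : ℕ) (h0 : iterD n F = iterD n G) : F = G := by
  have := (hF.sub hG).eq_zero_of_iterD_eq_zero hh n (by
    rw [iterD_sub hF.mdiff hG.mdiff, h0, sub_self])
  exact sub_eq_zero.mp this

end

end Fermat.Agent.S22.H76
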