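import Fermat.Agent.S22.H76_Nice

/-!
# Functions killed by `D^n` are polynomials; uniqueness of nice primitives (helper52, S22)

Proofs of the statements of `H76_Poly.lean`.
-/

namespace Fermat.Agent.S22.H52

open UpperHalfPlane hiding I
open Real Complex Derivative Filter Function
open scoped Manifold MatrixGroups ModularForm Topology
open Fermat.Agent.S22.H76

noncomputable section

theorem two_pi_I_ne_zero' : (2 * π * I : ℂ) ≠ 0 := by
  simp [Real.pi_ne_zero, Complex.I_ne_zero]

/-- A holomorphic function on `ℍ` with `D F = 0` is constant. -/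
theorem exists_const_of_D_eq_zero {F : ℍ → ℂ} (hF : MDiff F) (h : D F = 0) :
    ∃ c : ℂ, ∀ z : ℍ, F z = c := by
  have hF' : DifferentiableOn ℂ (F ∘ ofComplex) upperHalfPlaneSet :=
    UpperHalfPlane.mdifferentiable_iff.mp hF
  have hderiv : Set.EqOn (deriv (F ∘ ofComplex)) 0 upperHalfPlaneSet := by
    intro w hw
    have h1 : (2 * π * I : ℂ)⁻¹ * deriv (F ∘ ofComplex) w = 0 := congrFun h ⟨w, hw⟩
    rcases mul_eq_zero.mp h1 with h1 | h1
    · exact absurd (inv_eq_zero.mp h1) two_pi_I_ne_zero'
    · exact h1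
  have hconn : IsPreconnected upperHalfPlaneSet :=
    (convex_halfSpace_im_gt 0).isPreconnected
  refine ⟨F UpperHalfPlane.I, fun z => ?_⟩
  have := isOpen_upperHalfPlaneSet.is_const_of_deriv_eq_zero hconn hF' hderiv
    z.im_pos UpperHalfPlane.I.im_pos
  simpa only [Function.comp_apply, ofComplex_apply] using this

/-- The function on `ℍ` attached to a polynomial. -/
def polyFun (P : Polynomial ℂ) : ℍ → ℂ := fun z => P.eval (z : ℂ)

theorem polyFun_mdiff (P : Polynomial ℂ) : MDiff (polyFun P) := by
  rw [UpperHalfPlane.mdifferentiable_iff]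
  have : DifferentiableOn ℂ (fun w : ℂ => P.eval w) upperHalfPlaneSet :=
    P.differentiable.differentiableOn
  refine this.congr ?_
  intro w hw
  simp [polyFun, Function.comp_apply, ofComplex_apply_of_im_pos hw]

theorem D_polyFun (P : Polynomial ℂ) :
    D (polyFun P) = (2 * π * I : ℂ)⁻¹ • polyFun (Polynomial.derivative P) := by
  ext z
  simp only [normalizedDerivOfComplex, Pi.smul_apply, smul_eq_mul, polyFun]
  congr 1
  have h1 : HasDerivAt (fun w : ℂ => P.eval w) ((Polynomial.derivative P).eval (z : ℂ)) (z : ℂ) :=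
    P.hasDerivAt _
  have h2 : (polyFun P ∘ ofComplex) =ᶠ[𝓝 (z : ℂ)] fun w : ℂ => P.eval w := by
    filter_upwards [isOpen_upperHalfPlaneSet.mem_nhds z.im_pos] with w hw
    simp [polyFun, Function.comp_apply, ofComplex_apply_of_im_pos hw]
  exact (h1.congr_of_eventuallyEq h2).deriv

/-- Every complex polynomial has an antiderivative of degree at most one more. -/
theorem exists_antiderivative (Q : Polynomial ℂ) (n : ℕ) (hQ : Q.degree < n) :
    ∃ R : Polynomial ℂ, Polynomial.derivative R = Q ∧ R.degree < (n + 1 : ℕ) := by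
  classical
  refine ⟨∑ k ∈ Finset.range n, Polynomial.C (Q.coeff k / (k + 1)) * Polynomial.X ^ (k + 1),
    ?_, ?_⟩
  · rw [Polynomial.derivative_sum]
    have h1 : ∀ k ∈ Finset.range n,
        Polynomial.derivative (Polynomial.C (Q.coeff k / (k + 1)) * Polynomial.X ^ (k + 1))
          = Polynomial.C (Q.coeff k) * Polynomial.X ^ k := by
      intro k _
      rw [Polynomial.derivative_C_mul_X_pow]
      have hk : ((k : ℂ) + 1) ≠ 0 := by exact_mod_cast Nat.succ_ne_zero k
      congr 2
      push_cast
      field_simp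
    rw [Finset.sum_congr rfl h1]
    ext m
    simp only [Polynomial.finsetSum_coeff, Polynomial.coeff_C_mul, Polynomial.coeff_X_pow]
    by_cases hm : m < n
    · rw [Finset.sum_eq_single m]
      · simp
      · intro b _ hb
        simp [Ne.symm hb]
      · intro hmn
        exact absurd (Finset.mem_range.mpr hm) hmn
    · have : Q.coeff m = 0 := by
        apply Polynomial.coeff_eq_zero_of_degree_lt
        exact lt_of_lt_of_le hQ (by exact_mod_cast not_lt.mp hm)
      rw [this]
      apply Finset.sum_eq_zero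
      intro b hb
      have : m ≠ b := by
        intro hmb
        exact hm (hmb ▸ Finset.mem_range.mp hb)
      simp [this]
  · refine lt_of_le_of_lt (Polynomial.degree_sum_le _ _) ?_
    rw [Finset.sup_lt_iff (by exact_mod_cast WithBot.bot_lt_coe (n + 1))]
    intro k hk
    refine lt_of_le_of_lt (Polynomial.degree_C_mul_X_pow_le _ _) ?_
    exact_mod_cast Nat.succ_lt_succ (Finset.mem_range.mp hk)

/-- A holomorphic function on `ℍ` killed by `D^n` is a polynomial of degree `< n`. -/
theorem exists_poly_of_iterD_eq_zero (n : ℕ) :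
    ∀ {F : ℍ → ℂ}, MDiff F → iterD n F = 0 →
      ∃ P : Polynomial ℂ, P.degree < n ∧ ∀ z : ℍ, F z = P.eval (z : ℂ) := by
  induction n with
  | zero =>
    intro F _ h0
    refine ⟨0, ?_, fun z => ?_⟩
    · simp
    · have := congrFun h0 z
      simpa using this
  | succ n ih =>
    intro F hF h0
    rw [iterD_succ'] at h0
    obtain ⟨Q, hQdeg, hQ⟩ := ih (normalizedDerivOfComplex_mdifferentiable hF) h0
    obtain ⟨R, hR, hRdeg⟩ := exists_antiderivative ((2 * π * I : ℂ) • Q) n (by
      refine lt_of_le_of_lt (Polynomial.degree_smul_le _ _) hQdeg)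
    have hDR : D (polyFun R) = D F := by
      rw [D_polyFun, hR]
      ext z
      simp only [Pi.smul_apply, polyFun, Polynomial.eval_smul, smul_eq_mul]
      rw [hQ z, ← mul_assoc, inv_mul_cancel₀ two_pi_I_ne_zero', one_mul]
    have hsub : D (F - polyFun R) = 0 := by
      rw [normalizedDerivOfComplex_sub _ _ hF (polyFun_mdiff R), hDR, sub_self]
    obtain ⟨c, hc⟩ := exists_const_of_D_eq_zero (hF.sub (polyFun_mdiff R)) hsub
    refine ⟨R + Polynomial.C c, ?_, fun z => ?_⟩
    · refine lt_of_le_of_lt (Polynomial.degree_add_le _ _) ?_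
      rw [max_lt_iff]
      refine ⟨hRdeg, lt_of_le_of_lt Polynomial.degree_C_le ?_⟩
      exact_mod_cast Nat.succ_pos n
    · have := hc z
      simp only [Pi.sub_apply, polyFun] at this
      rw [Polynomial.eval_add, Polynomial.eval_C, ← this]
      ring

/-- A polynomial which is `h`-periodic on `ℍ` (`h ≠ 0`) is constant. -/
theorem poly_const_of_periodic (P : Polynomial ℂ) {h : ℝ} (hh : h ≠ 0)
    (hP : ∀ z : ℍ, P.eval ((z : ℂ) + h) = P.eval (z : ℂ)) : ∃ c : ℂ, P = Polynomial.C c := by
  refine ⟨P.eval Complex.I, ?_⟩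
  have hval : ∀ k : ℕ, P.eval (Complex.I + k * h) = P.eval Complex.I := by
    intro k
    induction k with
    | zero => simp
    | succ k ih =>
      have him : 0 < (Complex.I + k * h : ℂ).im := by simp
      have := hP ⟨Complex.I + k * h, him⟩
      rw [← ih, ← this]
      congr 1
      push_cast
      ring
  have hroot : ∀ k : ℕ, (P - Polynomial.C (P.eval Complex.I)).IsRoot (Complex.I + k * h) := by
    intro k
    simp [Polynomial.IsRoot, hval k]
  have hinj : Function.Injective (fun k : ℕ => (Complex.I + k * h : ℂ)) := by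
    intro a b hab
    have hh' : (h : ℂ) ≠ 0 := by exact_mod_cast hh
    have h1 : (a : ℂ) * h = b * h := add_left_cancel hab
    have h2 : (a : ℂ) = b := mul_right_cancel₀ hh' h1
    exact_mod_cast h2
  have hinf : Set.Infinite {x : ℂ | (P - Polynomial.C (P.eval Complex.I)).IsRoot x} := by
    refine Set.infinite_of_injective_forall_mem hinj (fun k => hroot k)
  have := Polynomial.eq_zero_of_infinite_isRoot _ hinf
  exact sub_eq_zero.mp this

/-- Uniqueness of nice iterated primitives. -/
theorem IsNice.eq_zero_of_iterD_eq_zero {h : ℝ} (hh : 0 < h) {F : ℍ → ℂ} (hF : IsNice h F)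
    (n : ℕ) (h0 : iterD n F = 0) : F = 0 := by
  obtain ⟨P, -, hP⟩ := exists_poly_of_iterD_eq_zero n hF.mdiff h0
  have hper : ∀ z : ℍ, P.eval ((z : ℂ) + h) = P.eval (z : ℂ) := by
    intro z
    have him : 0 < ((z : ℂ) + h).im := by simpa using z.im_pos
    have h1 := hF.periodic (z : ℂ)
    simp only [Function.comp_apply] at h1
    rw [ofComplex_apply_of_im_pos him, ofComplex_apply_of_im_pos z.im_pos] at h1
    have h2 := hP ⟨(z : ℂ) + h, him⟩
    have h3 := hP ⟨(z : ℂ), z.im_pos⟩
    rw [← h2, ← h3]
    exact h1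
  obtain ⟨c, hc⟩ := poly_const_of_periodic P hh.ne' hper
  have hFc : ∀ z : ℍ, F z = c := by
    intro z
    rw [hP z, hc, Polynomial.eval_C]
  have hlim : Tendsto F atImInfty (𝓝 0) := hF.zero
  have hconst : Tendsto F atImInfty (𝓝 c) := by
    have : F = fun _ => c := funext hFc
    rw [this]
    exact tendsto_const_nhds
  have hne : (atImInfty : Filter ℍ).NeBot := by infer_instance
  have hc0 : c = 0 := tendsto_nhds_unique hconst hlim
  ext z
  rw [hFc z, hc0]
  rfl

theorem IsNice.eq_of_iterD_eq {h : ℝ} (hh : 0 < h) {F G : ℍ → ℂ} (hF : IsNice h F)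
    (hG : IsNice h G) (n : ℕ) (h0 : iterD n F = iterD n G) : F = G := by
  have := IsNice.eq_zero_of_iterD_eq_zero hh (hF.sub hG) n (by
    rw [iterD_sub hF.mdiff hG.mdiff, h0, sub_self])
  exact sub_eq_zero.mp this

end

end Fermat.Agent.S22.H52
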