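import Fermat.Agent.S22.H76_Nice
import Fermat.Prelude.Def_ModularForm_HeckeOperatorForms
import Fermat.Prelude.Thm_ModularForm_periodic_heckeU_comp_ofComplex
import Fermat.Prelude.Thm_ModularForm_periodic_heckeT_comp_ofComplex

/-!
# S22, E3: the Hecke relation for nice iterated primitives (helper7)

If `G` is nice (holomorphic, `1`-periodic, zero at `i∞`) and `D^(n+1) G = f`, then
`p^(n+1) • heckeU (-n) p G` is nice and `D^(n+1)` of it is `heckeU (n+2) p f`; same for `heckeT`.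
-/

set_option autoImplicit false

namespace Fermat.Agent.S22.H7

open UpperHalfPlane hiding I
open Real Complex Derivative Filter Function ModularForm
open scoped Manifold MatrixGroups ModularForm Topology
open Fermat.Agent.S22.H76

noncomputable section

theorem heckeMatrix_one_zero (p j : ℕ) : (heckeMatrix p j : GL (Fin 2) ℝ) 1 0 = 0 := by
  rcases eq_or_ne p 0 with rfl | hp
  · simp
  · show ((heckeMatrix p j : GL (Fin 2) ℝ) : Matrix (Fin 2) (Fin 2) ℝ) 1 0 = 0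
    rw [val_heckeMatrix hp]
    simp

theorem heckeDiagMatrix_one_zero (p : ℕ) : (heckeDiagMatrix p : GL (Fin 2) ℝ) 1 0 = 0 := by
  rcases eq_or_ne p 0 with rfl | hp
  · simp
  · show ((heckeDiagMatrix p : GL (Fin 2) ℝ) : Matrix (Fin 2) (Fin 2) ℝ) 1 0 = 0
    rw [val_heckeDiagMatrix hp]
    simp

theorem val_det_heckeMatrix {p : ℕ} (hp : p ≠ 0) (j : ℕ) :
    ((heckeMatrix p j : GL (Fin 2) ℝ) : Matrix (Fin 2) (Fin 2) ℝ).det = p := by
  rw [val_heckeMatrix hp, Matrix.det_fin_two_of]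
  ring

theorem val_det_heckeDiagMatrix {p : ℕ} (hp : p ≠ 0) :
    ((heckeDiagMatrix p : GL (Fin 2) ℝ) : Matrix (Fin 2) (Fin 2) ℝ).det = p := by
  rw [val_heckeDiagMatrix hp, Matrix.det_fin_two_of]
  ring

theorem isZeroAtImInfty_sum {ι : Type*} (s : Finset ι) {F : ι → ℍ → ℂ}
    (hF : ∀ i ∈ s, IsZeroAtImInfty (F i)) : IsZeroAtImInfty (∑ i ∈ s, F i) := by
  classical
  induction s using Finset.induction_on with
  | empty =>
    simp only [Finset.sum_empty]
    exact (tendsto_const_nhds : Tendsto (fun _ : ℍ => (0 : ℂ)) atImInfty (𝓝 0))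
  | insert i t hi ih =>
    rw [Finset.sum_insert hi]
    have h1 := hF i (Finset.mem_insert_self i t)
    have h2 := ih fun j hj => hF j (Finset.mem_insert_of_mem hj)
    have := h1.add h2
    simpa [IsZeroAtImInfty, ZeroAtFilter] using this

theorem isZeroAtImInfty_heckeU {G : ℍ → ℂ} (hG : IsZeroAtImInfty G) (k : ℤ) (p : ℕ) :
    IsZeroAtImInfty (heckeU k p G) := by
  rw [heckeU_def]
  exact isZeroAtImInfty_sum _ fun j _ => hG.slash k (heckeMatrix_one_zero p j)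

theorem isZeroAtImInfty_heckeT {G : ℍ → ℂ} (hG : IsZeroAtImInfty G) (k : ℤ) (p : ℕ) :
    IsZeroAtImInfty (heckeT k p G) := by
  rw [heckeT_eq_heckeU_add]
  have := (isZeroAtImInfty_heckeU hG k p).add (hG.slash k (heckeDiagMatrix_one_zero p))
  simpa [IsZeroAtImInfty, ZeroAtFilter] using this

theorem isNice_heckeU {G : ℍ → ℂ} (hG : IsNice 1 G) (k : ℤ) (p : ℕ) :
    IsNice 1 (heckeU k p G) where
  mdiff := mdifferentiable_heckeU hG.mdiff k p
  periodic := periodic_heckeU_comp_ofComplex hG.periodic k p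
  zero := isZeroAtImInfty_heckeU hG.zero k p

theorem isNice_heckeT {G : ℍ → ℂ} (hG : IsNice 1 G) (k : ℤ) (p : ℕ) :
    IsNice 1 (heckeT k p G) where
  mdiff := mdifferentiable_heckeT hG.mdiff k p
  periodic := periodic_heckeT_comp_ofComplex hG.periodic k p
  zero := isZeroAtImInfty_heckeT hG.zero k p

/-- Bol's identity in the shape used here: weight `-n` on the left, `n + 2` on the right. -/
theorem bol_neg {g : GL (Fin 2) ℝ} (hg : 0 < g.val.det) (n : ℕ) {F : ℍ → ℂ} (hF : MDiff F) :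
    iterD (n + 1) (F ∣[-(n : ℤ)] g) =
      ((g.val.det : ℂ)⁻¹) ^ (n + 1) • ((iterD (n + 1) F) ∣[(n : ℤ) + 2] g) := by
  have h := bol hg (n + 1) hF
  have e1 : (1 : ℤ) - ((n + 1 : ℕ) : ℤ) = -(n : ℤ) := by push_cast; ring
  have e2 : (((n + 1 : ℕ) : ℤ)) + 1 = (n : ℤ) + 2 := by push_cast; ring
  rw [e1, e2] at h
  exact h

theorem iterD_heckeU (n : ℕ) {p : ℕ} (hp : p ≠ 0) {G : ℍ → ℂ} (hG : MDiff G) :
    iterD (n + 1) (((p : ℂ) ^ (n + 1)) • heckeU (-(n : ℤ)) p G) =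
      heckeU ((n : ℤ) + 2) p (iterD (n + 1) G) := by
  have hp' : (p : ℂ) ≠ 0 := by exact_mod_cast hp
  rw [iterD_smul (mdifferentiable_heckeU hG _ _), heckeU_def, heckeU_def,
    iterD_sum _ (fun j _ => hG.slash _ _), Finset.smul_sum]
  refine Finset.sum_congr rfl fun j _ => ?_
  have hdet : (0 : ℝ) < ((heckeMatrix p j : GL (Fin 2) ℝ) : Matrix (Fin 2) (Fin 2) ℝ).det := by
    rw [val_det_heckeMatrix hp]; exact_mod_cast Nat.pos_of_ne_zero hp
  rw [bol_neg hdet n hG, val_det_heckeMatrix hp, smul_smul]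
  have : (p : ℂ) ^ (n + 1) * (((p : ℝ) : ℂ)⁻¹) ^ (n + 1) = 1 := by
    rw [← mul_pow]
    have : (p : ℂ) * (((p : ℝ) : ℂ))⁻¹ = 1 := by
      push_cast
      exact mul_inv_cancel₀ hp'
    rw [this, one_pow]
  rw [this, one_smul]

theorem iterD_heckeT (n : ℕ) {p : ℕ} (hp : p ≠ 0) {G : ℍ → ℂ} (hG : MDiff G) :
    iterD (n + 1) (((p : ℂ) ^ (n + 1)) • heckeT (-(n : ℤ)) p G) =
      heckeT ((n : ℤ) + 2) p (iterD (n + 1) G) := by
  have hp' : (p : ℂ) ≠ 0 := by exact_mod_cast hp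
  rw [heckeT_eq_heckeU_add, heckeT_eq_heckeU_add, smul_add,
    iterD_add ((mdifferentiable_heckeU hG _ _).const_smul _) ((hG.slash _ _).const_smul _),
    iterD_heckeU n hp hG, iterD_smul (hG.slash _ _)]
  congr 1
  have hdet : (0 : ℝ) < ((heckeDiagMatrix p : GL (Fin 2) ℝ) : Matrix (Fin 2) (Fin 2) ℝ).det := by
    rw [val_det_heckeDiagMatrix hp]; exact_mod_cast Nat.pos_of_ne_zero hp
  rw [bol_neg hdet n hG, val_det_heckeDiagMatrix hp, smul_smul]
  have : (p : ℂ) ^ (n + 1) * (((p : ℝ) : ℂ)⁻¹) ^ (n + 1) = 1 := by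
    rw [← mul_pow]
    have : (p : ℂ) * (((p : ℝ) : ℂ))⁻¹ = 1 := by
      push_cast
      exact mul_inv_cancel₀ hp'
    rw [this, one_pow]
  rw [this, one_smul]

/-- **E3 for `U_p`** (definition-independent form). -/
theorem heckeU_rel (n : ℕ) {p : ℕ} (hp : p ≠ 0) {G f : ℍ → ℂ} (hG : IsNice 1 G)
    (hf : iterD (n + 1) G = f) :
    IsNice 1 (((p : ℂ) ^ (n + 1)) • heckeU (-(n : ℤ)) p G) ∧
      iterD (n + 1) (((p : ℂ) ^ (n + 1)) • heckeU (-(n : ℤ)) p G) = heckeU ((n : ℤ) + 2) p f := by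
  subst hf
  exact ⟨(isNice_heckeU hG _ p).smul _, iterD_heckeU n hp hG.mdiff⟩

/-- **E3 for `T_p`** (definition-independent form). -/
theorem heckeT_rel (n : ℕ) {p : ℕ} (hp : p ≠ 0) {G f : ℍ → ℂ} (hG : IsNice 1 G)
    (hf : iterD (n + 1) G = f) :
    IsNice 1 (((p : ℂ) ^ (n + 1)) • heckeT (-(n : ℤ)) p G) ∧
      iterD (n + 1) (((p : ℂ) ^ (n + 1)) • heckeT (-(n : ℤ)) p G) = heckeT ((n : ℤ) + 2) p f := by
  subst hf
  exact ⟨(isNice_heckeT hG _ p).smul _, iterD_heckeT n hp hG.mdiff⟩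

end

end Fermat.Agent.S22.H7
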